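import Fermat.Agent.DIV.Count

set_option autoImplicit false

/-!
# DIV: the abstract divisibility theorem
-/

namespace Fermat.Agent.DIV

open IntermediateField

variable {Ω : Type*} [Field Ω] [Algebra ℚ Ω] {Pl JJ : Type*} [AddCommGroup JJ]
  [MulAction (Ω ≃ₐ[ℚ] Ω) Pl] [DistribMulAction (Ω ≃ₐ[ℚ] Ω) JJ] (S : Setup Ω Pl JJ)

/-- the points of a generic sum lie over `cl T` as soon as the sum has finite orbit. -/
theorem mem_cl_of_sum_mem_FinOrb (hΩ : Rich Ω) {T : Set Ω} {P : Fin S.g → Pl} {t : Fin S.g → Ω}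
    (hP : ∀ i, S.val (P i) = some (t i)) (ht : AlgebraicIndependent ℚ t)
    (h : ∑ i, S.cls (P i) ∈ FinOrb JJ T) (i : Fin S.g) : t i ∈ cl T := by
  classical
  have hred := S.red_generic P t hP ht
  have hinj : Function.Injective P := by
    intro a b hab
    apply ht.injective
    have := hP a
    rw [hab, hP b] at this
    exact (Option.some.inj this).symm
  have hmem : P i ∈ (S.red (∑ i, S.cls (P i))).support := by
    rw [hred, Finsupp.mem_support_iff, Finsupp.finsetSum_apply]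
    rw [Finset.sum_eq_single i]
    · simp
    · intro b _ hb
      rw [Finsupp.single_apply, if_neg (fun h => hb (hinj h))]
    · intro h; exact absurd (Finset.mem_univ i) h
  exact over_of_mem_FinOrb S hΩ h hmem _ (hP i)

/-- there are sums of `g` points with prescribed independent values. -/
theorem exists_points (t : Fin S.g → Ω) : ∃ P : Fin S.g → Pl, ∀ i, S.val (P i) = some (t i) :=
  ⟨fun i => (S.exists_val (t i)).choose, fun i => (S.exists_val (t i)).choose_spec⟩

theorem smul_comm_nat (σ : Ω ≃ₐ[ℚ] Ω) (m : ℕ) (b : JJ) : σ • (m • b) = m • (σ • b) :=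
  map_nsmul (DistribSMul.toAddMonoidHom JJ σ) m b

theorem generic_mem (hΩ : Rich Ω) {m : ℕ} (hfin : {c : JJ | m • c = 0}.Finite) {c : JJ}
    (hc : S.IsGeneric c) : ∃ b : JJ, m • b = c := by
  -- one generic class which is divisible
  obtain ⟨t, ht⟩ := hΩ.indep (∅ : Set Ω) Set.finite_empty S.g
  have htQ := algebraicIndependent_rat_of_adjoin ht
  obtain ⟨P, hP⟩ := exists_points S t
  set b : JJ := ∑ i, S.cls (P i) with hb
  have h1 : m • b ∈ FinOrb JJ (S.vals (m • b) : Set Ω) :=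
    mem_FinOrb_of_red S fun Q hQ => over_vals S hQ
  have h2 : b ∈ FinOrb JJ (S.vals (m • b) : Set Ω) := saturated hfin h1
  have h3 : S.IsGeneric (m • b) := by
    refine generic_of_mem_cl S ht fun i => ?_
    rw [Set.empty_union]
    exact mem_cl_of_sum_mem_FinOrb S hΩ hP htQ h2 i
  obtain ⟨Q, s, hQ, hs, hQs⟩ := h3
  obtain ⟨Q', s', hQ', hs', hQs'⟩ := hc
  obtain ⟨σ, hσ⟩ := S.trans Q Q' s s' hQ hQ' hs hs'
  refine ⟨σ • b, ?_⟩
  rw [← smul_comm_nat σ m b, hQs, hQs', Finset.smul_sum]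
  refine Finset.sum_congr rfl fun i _ => ?_
  rw [← S.cls_smul, hσ]

include S in
/-- **Divisibility.** -/
theorem divisible_abstract (hΩ : Rich Ω) {m : ℕ} (hfin : {c : JJ | m • c = 0}.Finite) (a : JJ) :
    ∃ b : JJ, m • b = a := by
  set T : Set Ω := (S.vals a : Set Ω) with hT
  obtain ⟨t, ht⟩ := hΩ.indep T (Finset.finite_toSet _) S.g
  have htQ := algebraicIndependent_rat_of_adjoin ht
  obtain ⟨P, hP⟩ := exists_points S t
  set u : JJ := ∑ i, S.cls (P i) with hu
  have hugen : S.IsGeneric u := ⟨P, t, hP, htQ, rfl⟩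
  set w : JJ := a + u with hw
  have ha : a ∈ FinOrb JJ (T ∪ (S.vals w : Set Ω)) :=
    FinOrb_mono Set.subset_union_left (mem_FinOrb_of_red S fun Q hQ => over_vals S hQ)
  have hw' : w ∈ FinOrb JJ (T ∪ (S.vals w : Set Ω)) :=
    FinOrb_mono Set.subset_union_right (mem_FinOrb_of_red S fun Q hQ => over_vals S hQ)
  have hu' : u ∈ FinOrb JJ (T ∪ (S.vals w : Set Ω)) := by
    have : u = w - a := by rw [hw]; abel
    rw [this]
    exact sub_mem hw' ha
  have hwgen : S.IsGeneric w :=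
    generic_of_mem_cl S ht fun i => mem_cl_of_sum_mem_FinOrb S hΩ hP htQ hu' i
  obtain ⟨b₁, hb₁⟩ := generic_mem S hΩ hfin hwgen
  obtain ⟨b₂, hb₂⟩ := generic_mem S hΩ hfin hugen
  refine ⟨b₁ - b₂, ?_⟩
  rw [smul_sub, hb₁, hb₂, hw]
  abel

end Fermat.Agent.DIV
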