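import Fermat.Agent.DIV.BC.Exists
import Fermat.Agent.DIV.BC.Desc

set_option autoImplicit false

/-!
# DIV (7) : base change of places from `F_ℚ̄ = S24.FN N` to `F_ℂ = C24.FN N`

API (everything is proved here from the leaves `DIV/BC/*.lean`):
* `bc N : Place Kb (S24.FN N) → Place Kc (C24.FN N)`, `ord_bc`, `bc_injective`, `eq_bc`;
* `ord_iotaF_of_not_mem_range`, `mem_range_bc_iff` (the places in the range are those whose `j`-value is `∞` or in `Kb`);
* `smul_bc`, `smul_mem_range_iff` (action of the automorphisms of `Kc` fixing `Kb`), `infinite_orbit`;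
* `exists_descent_of_supp`.
-/

namespace Fermat.Agent.DIV

open AlgebraicCurve Fermat.Agent.NV
open Fermat.Agent.S24 (Kb)
open Fermat.Agent.C24 (Kc)

theorem exists_bc (N : ℕ) [NeZero N] (v : Place Kb (S24.FN N)) :
    ∃ w : Place Kc (C24.FN N), BC.Over (iotaF N) w v 1 := by
  obtain ⟨S, e, h⟩ := exists_isBC N
  obtain ⟨w, μ, hμ, hw⟩ := exists_over N v
  have := hw.eq_one (S24.isFF1_FN N) h hμ
  subst this
  exact ⟨w, hw⟩

/-- the place of `F_ℂ` over a place of `F_ℚ̄`. -/
noncomputable def bc (N : ℕ) [NeZero N] (v : Place Kb (S24.FN N)) : Place Kc (C24.FN N) :=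
  (exists_bc N v).choose

theorem over_bc (N : ℕ) [NeZero N] (v : Place Kb (S24.FN N)) :
    BC.Over (iotaF N) (bc N v) v 1 := (exists_bc N v).choose_spec

theorem ord_bc (N : ℕ) [NeZero N] (v : Place Kb (S24.FN N)) (f : S24.FN N) :
    (bc N v).ord (iotaF N f) = v.ord f := by
  rw [over_bc N v f, one_mul]

theorem bc_injective (N : ℕ) [NeZero N] : Function.Injective (bc N) := by
  intro v v' h
  have h1 := over_bc N v
  rw [h] at h1
  exact h1.injective (over_bc N v')

theorem eq_bc (N : ℕ) [NeZero N] {w : Place Kc (C24.FN N)} {v : Place Kb (S24.FN N)}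
    (h : ∀ f, w.ord (iotaF N f) = v.ord f) : w = bc N v := by
  obtain ⟨S, e, hbc⟩ := exists_isBC N
  exact BC.Over.unique (S24.isFF1_FN N) hbc one_pos one_pos (fun f => by rw [h, one_mul])
    (over_bc N v)

theorem mem_range_bc_of_ne (N : ℕ) [NeZero N] {w : Place Kc (C24.FN N)} {f : S24.FN N}
    (h : w.ord (iotaF N f) ≠ 0) : w ∈ Set.range (bc N) := by
  obtain ⟨S, e, hbc⟩ := exists_isBC N
  obtain ⟨v, hv⟩ := BC.exists_over_of_ne (S24.isFF1_FN N) hbc w h
  exact ⟨v, (eq_bc N fun f => by rw [hv f, one_mul]).symm⟩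

theorem ord_iotaF_of_not_mem_range (N : ℕ) [NeZero N] {w : Place Kc (C24.FN N)}
    (hw : w ∉ Set.range (bc N)) (f : S24.FN N) : w.ord (iotaF N f) = 0 := by
  by_contra h
  exact hw (mem_range_bc_of_ne N h)

theorem not_mem_range_iff (N : ℕ) [NeZero N] (w : Place Kc (C24.FN N)) :
    w ∉ Set.range (bc N) ↔ ∀ f, w.ord (iotaF N f) = 0 := by
  refine ⟨fun h f => ord_iotaF_of_not_mem_range N h f, ?_⟩
  rintro h ⟨v, rfl⟩
  obtain ⟨t, ht, -, -⟩ := S24.exists_ord_eq_one v
  have := h t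
  rw [ord_bc, ht] at this
  exact one_ne_zero this

theorem iotaF_jF (N : ℕ) [NeZero N] : iotaF N (S24.jF N) = C24.jF N := by
  apply Subtype.ext
  rw [coe_iotaF]
  exact Bridge.coeffMap_Jser 1

theorem iotaF_algebraMap (N : ℕ) [NeZero N] (c : Kb) :
    iotaF N (algebraMap Kb (S24.FN N) c) = algebraMap Kc (C24.FN N) (iotaKC c) := by
  apply Subtype.ext
  rw [coe_iotaF]
  exact Bridge.coeffMap_const c

/-- the places in the range of `bc` are the places whose `j`-value is `∞` or lies in `Kb`. -/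
theorem mem_range_bc_iff (N : ℕ) [NeZero N] (w : Place Kc (C24.FN N)) :
    w ∈ Set.range (bc N) ↔ w.ord (C24.jF N) < 0 ∨
      ∃ c : Kb, 0 < w.ord (C24.jF N - algebraMap Kc (C24.FN N) (iotaKC c)) := by
  constructor
  · rintro ⟨v, rfl⟩
    rcases lt_or_ge (v.ord (S24.jF N)) 0 with hneg | hpos
    · left
      rw [← iotaF_jF, ord_bc]
      exact hneg
    · right
      obtain ⟨c, hc | hc⟩ := S24.exists_const_sub (S24.isFF1_FN N) v hpos
      · exact absurd (hc ▸ isAlgebraic_algebraMap c) (S24.transcendental_jF N)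
      · refine ⟨c, ?_⟩
        rw [← iotaF_jF, ← iotaF_algebraMap, ← map_sub, ord_bc]
        exact hc
  · rintro (h | ⟨c, hc⟩)
    · rw [← iotaF_jF] at h
      exact mem_range_bc_of_ne N h.ne
    · rw [← iotaF_jF, ← iotaF_algebraMap, ← map_sub] at hc
      exact mem_range_bc_of_ne N hc.ne'

/-- the automorphisms of `Kc` over `Kb` fix the places in the range of `bc`. -/
theorem smul_bc (N : ℕ) [NeZero N] (σ : Kc ≃ₐ[ℚ] Kc) (hσ : ∀ a, σ (iotaKC a) = iotaKC a)
    (v : Place Kb (S24.FN N)) :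
    ModularCurve.arithmeticGalois (ModularCurve.modularFunctionFieldFull N) σ • bc N v = bc N v :=
  smul_eq_of_over N σ hσ _ v (over_bc N v)

theorem smul_mem_range_iff (N : ℕ) [NeZero N] (σ : Kc ≃ₐ[ℚ] Kc)
    (hσ : ∀ a, σ (iotaKC a) = iotaKC a) (w : Place Kc (C24.FN N)) :
    ModularCurve.arithmeticGalois (ModularCurve.modularFunctionFieldFull N) σ • w
      ∈ Set.range (bc N) ↔ w ∈ Set.range (bc N) := by
  rw [← not_iff_not, not_mem_range_iff, not_mem_range_iff]
  simp only [ord_smul_iotaF N σ hσ]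

/-- a function whose divisor is supported on the range of `bc` is, up to a constant, defined over `Kb`. -/
theorem exists_descent_of_supp (N : ℕ) [NeZero N] (h : C24.FN N) (h0 : h ≠ 0)
    (hs : ∀ w : Place Kc (C24.FN N), w ∉ Set.range (bc N) → w.ord h = 0) :
    ∃ (c : Kc) (h₀ : S24.FN N), c ≠ 0 ∧ h₀ ≠ 0 ∧ h = c • iotaF N h₀ := by
  obtain ⟨c, h₀, hc, hh, e⟩ := exists_descent_fun N h h0
    (fun w hw => hs w ((not_mem_range_iff N w).2 hw))
  exact ⟨c, h₀, hc, hh, by rw [e, Algebra.smul_def]⟩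

end Fermat.Agent.DIV
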