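import Fermat.Agent.DIV.Orbits

set_option autoImplicit false

/-!
# DIV task DV3-Count : a class whose reduced divisor carries `g` independent parameters is generic

`vals c` is the finite set of the (finite) values of the points of `red c`.
`generic_of_mem_cl`: let `D = S.red c`.  `#(vals c) ≤ #D.support ≤ ∑ D P ≤ g` (`S.red_nonneg`, every `P` in the support has `D P ≥ 1`, `S.card_red`).  `exchange` gives `#(vals c) = g` and the independence of `vals c`.
Hence equality everywhere: `#D.support = g`, `D P = 1` on the support, every `P` in the support has a finite value and `val` is injective on the support.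
Enumerate the support: `e : Fin g ≃ D.support` (`Finset.equivFinOfCardEq`), `Q = (↑) ∘ e`, `s i =` the value of `Q i`; `c = ∑ cls (Q i)` by `S.sum_red`; `s` is the composition of a bijection `Fin g ≃ vals c` with the inclusion,
so it is independent (`AlgebraicIndependent.comp` with an injective map).
-/

namespace Fermat.Agent.DIV

open IntermediateField

variable {Ω : Type*} [Field Ω] [Algebra ℚ Ω] {Pl JJ : Type*} [AddCommGroup JJ]
  [MulAction (Ω ≃ₐ[ℚ] Ω) Pl] [DistribMulAction (Ω ≃ₐ[ℚ] Ω) JJ] (S : Setup Ω Pl JJ)

open Classical in
/-- the finite values of the points of the reduced divisor. -/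
noncomputable def Setup.vals (c : JJ) : Finset Ω :=
  (S.red c).support.biUnion fun P => (S.val P).toFinset

theorem mem_vals {c : JJ} {s : Ω} : s ∈ S.vals c ↔ ∃ P ∈ (S.red c).support, S.val P = some s := by
  classical
  unfold Setup.vals
  rw [Finset.mem_biUnion]
  refine exists_congr fun P => and_congr_right fun _ => ?_
  rw [Option.mem_toFinset, Option.mem_def]

theorem over_vals {c : JJ} {P : Pl} (hP : P ∈ (S.red c).support) :
    S.Over (S.vals c : Set Ω) P := by
  intro s hs
  apply subset_cl
  rw [Finset.mem_coe, mem_vals]
  exact ⟨P, hP, hs⟩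

/-- a class is generic if it is the sum of `g` points with independent values. -/
def Setup.IsGeneric (c : JJ) : Prop :=
  ∃ (Q : Fin S.g → Pl) (s : Fin S.g → Ω), (∀ i, S.val (Q i) = some (s i)) ∧
    AlgebraicIndependent ℚ s ∧ c = ∑ i, S.cls (Q i)

theorem generic_of_mem_cl {T : Set Ω} {t : Fin S.g → Ω}
    (ht : AlgebraicIndependent (adjoin ℚ T) t) {c : JJ}
    (h : ∀ i, t i ∈ cl (T ∪ (S.vals c : Set Ω))) : S.IsGeneric c := by
  classical
  set D := S.red c with hD
  set v : Pl → Ω := fun P => (S.val P).getD 0 with hv
  have hsub : S.vals c ⊆ D.support.image v := by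
    intro s hs
    obtain ⟨P, hP, hPs⟩ := (mem_vals S).1 hs
    exact Finset.mem_image.2 ⟨P, hP, by simp [hv, hPs]⟩
  have hone : ∀ P ∈ D.support, 1 ≤ D P := by
    intro P hP
    have h1 := S.red_nonneg c P
    have h2 := Finsupp.mem_support_iff.1 hP
    have h1' : 0 ≤ D P := h1
    omega
  have hsum : (∑ P ∈ D.support, D P) ≤ S.g := S.card_red c
  have hcard : (D.support.card : ℤ) ≤ ∑ P ∈ D.support, D P := by
    have := Finset.sum_le_sum hone
    simpa using this
  have hc1 : (D.support.image v).card ≤ D.support.card := Finset.card_image_le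
  have hc2 : (S.vals c).card ≤ (D.support.image v).card := Finset.card_le_card hsub
  have hc3 : D.support.card ≤ S.g := by
    have : (D.support.card : ℤ) ≤ S.g := hcard.trans hsum
    exact_mod_cast this
  obtain ⟨hg, hind⟩ := exchange ht (S.vals c) (hc2.trans (hc1.trans hc3)) h
  have hsc : D.support.card = S.g := by omega
  have himg : (D.support.image v).card = D.support.card := by omega
  have hinj : Set.InjOn v D.support := Finset.card_image_iff.1 himg
  have heq : S.vals c = D.support.image v := Finset.eq_of_subset_of_card_le hsub (by omega)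
  have hval : ∀ P ∈ D.support, S.val P = some (v P) := by
    intro P hP
    have h1 : v P ∈ S.vals c := by rw [heq]; exact Finset.mem_image_of_mem v hP
    obtain ⟨P', hP', hP's⟩ := (mem_vals S).1 h1
    have h2 : v P' = v P := by simp [hv, hP's]
    have h3 : P' = P := hinj hP' hP h2
    rw [← h3, hP's, h3]
  have hDone : ∀ P ∈ D.support, D P = 1 := by
    have h0 : ∑ P ∈ D.support, (D P - 1) = 0 := by
      rw [Finset.sum_sub_distrib]
      simp only [Finset.sum_const, nsmul_eq_mul, mul_one]
      have : (D.support.card : ℤ) = S.g := by exact_mod_cast hsc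
      omega
    intro P hP
    have := (Finset.sum_eq_zero_iff_of_nonneg (fun P hP => by have := hone P hP; omega)).1 h0 P hP
    omega
  let e : D.support ≃ Fin S.g := Finset.equivFinOfCardEq hsc
  refine ⟨fun i => (e.symm i : Pl), fun i => v (e.symm i : Pl), fun i => hval _ (e.symm i).2, ?_, ?_⟩
  · have hmem : ∀ i, v (e.symm i : Pl) ∈ S.vals c := fun i => by
      rw [heq]; exact Finset.mem_image_of_mem v (e.symm i).2
    have := hind.comp (fun i => (⟨v (e.symm i : Pl), hmem i⟩ : S.vals c)) (by
      intro i i' hii
      have h1 : v (e.symm i : Pl) = v (e.symm i' : Pl) := congrArg Subtype.val hii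
      have h2 := hinj (e.symm i).2 (e.symm i').2 h1
      exact e.symm.injective (Subtype.ext h2))
    exact this
  · rw [Equiv.sum_comp e.symm (fun x : D.support => S.cls (x : Pl)),
      Finset.sum_coe_sort D.support (fun P => S.cls P)]
    conv_lhs => rw [← S.sum_red c]
    refine Finset.sum_congr rfl fun P hP => ?_
    show D P • S.cls P = S.cls P
    rw [hDone P hP, one_smul]

end Fermat.Agent.DIV
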