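import Mathlib

set_option autoImplicit false

/-!
# Chapter DIV (divisibility of `Pic⁰`): abstract definitions

`Ω` is an algebraically closed field of characteristic `0` and infinite transcendence degree (in the application `Ω = ℂ`),
`G = Aut (Ω / ℚ)`.  `Pl` is the set of places of a function field over `Ω` which is defined over `ℚ`, `JJ = Pic⁰`; `G` acts on both.
`val P` is the value of a fixed `G`-invariant function `j` at `P` (`none` = pole), `cls P = [P - ∞]`, `red c` is the reduced divisor of the class `c`.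
-/

namespace Fermat.Agent.DIV

open IntermediateField

variable {Ω : Type*} [Field Ω] [Algebra ℚ Ω]

/-- the elements of `Ω` which are algebraic over `ℚ(T)`. -/
noncomputable def cl (T : Set Ω) : IntermediateField ℚ Ω :=
  (algebraicClosure (adjoin ℚ T) Ω).restrictScalars ℚ

theorem mem_cl {T : Set Ω} {x : Ω} : x ∈ cl T ↔ IsAlgebraic (adjoin ℚ T) x := by
  rw [cl, IntermediateField.mem_restrictScalars, mem_algebraicClosure_iff]

/-- the automorphisms fixing `cl T` pointwise. -/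
noncomputable abbrev fixer (T : Set Ω) : Subgroup (Ω ≃ₐ[ℚ] Ω) := (cl T).fixingSubgroup

theorem mem_fixer {T : Set Ω} {σ : Ω ≃ₐ[ℚ] Ω} : σ ∈ fixer T ↔ ∀ x ∈ cl T, σ x = x := by
  rw [IntermediateField.mem_fixingSubgroup_iff]

/-- `Ω` has many automorphisms and many independent elements. -/
structure Rich (Ω : Type*) [Field Ω] [Algebra ℚ Ω] : Prop where
  orbit : ∀ (T : Set Ω) (x : Ω), x ∉ cl T → (MulAction.orbit (fixer T) x).Infinite
  indep : ∀ T : Set Ω, T.Finite → ∀ n : ℕ, ∃ t : Fin n → Ω, AlgebraicIndependent (adjoin ℚ T) t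

/-- the abstract situation. -/
structure Setup (Ω : Type*) [Field Ω] [Algebra ℚ Ω] (Pl JJ : Type*) [AddCommGroup JJ]
    [MulAction (Ω ≃ₐ[ℚ] Ω) Pl] [DistribMulAction (Ω ≃ₐ[ℚ] Ω) JJ] where
  /-- the value of `j`. -/
  val : Pl → Option Ω
  /-- the class of `P - ∞`. -/
  cls : Pl → JJ
  /-- the reduced divisor. -/
  red : JJ → Pl →₀ ℤ
  /-- the genus. -/
  g : ℕ
  val_smul : ∀ (σ : Ω ≃ₐ[ℚ] Ω) (P : Pl), val (σ • P) = (val P).map σ
  finite_fibre : ∀ o : Option Ω, {P | val P = o}.Finite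
  exists_val : ∀ t : Ω, ∃ P, val P = some t
  cls_smul : ∀ (σ : Ω ≃ₐ[ℚ] Ω) (P : Pl), cls (σ • P) = σ • cls P
  red_nonneg : ∀ c P, 0 ≤ red c P
  sum_red : ∀ c, ((red c).sum fun P n => n • cls P) = c
  card_red : ∀ c, ((red c).sum fun _ n => n) ≤ g
  red_smul : ∀ (σ : Ω ≃ₐ[ℚ] Ω) (c : JJ), red (σ • c) = (red c).mapDomain (σ • ·)
  red_generic : ∀ (P : Fin g → Pl) (t : Fin g → Ω), (∀ i, val (P i) = some (t i)) →
    AlgebraicIndependent ℚ t → red (∑ i, cls (P i)) = ∑ i, Finsupp.single (P i) 1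
  trans : ∀ (P P' : Fin g → Pl) (t t' : Fin g → Ω), (∀ i, val (P i) = some (t i)) →
    (∀ i, val (P' i) = some (t' i)) → AlgebraicIndependent ℚ t → AlgebraicIndependent ℚ t' →
    ∃ σ : Ω ≃ₐ[ℚ] Ω, ∀ i, σ • P i = P' i

end Fermat.Agent.DIV
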