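import Fermat.Agent.DIV.Ext

set_option autoImplicit false

/-!
# DIV task DV5-Emb : two embeddings of a field of transcendence degree one are conjugate  (Mathlib only)

`E ⊆ Ω`, `Ω` algebraically closed, `M / E` a field extension with transcendence basis `{x}`, `ε ε' : M →ₐ[E] Ω`.  Then `ε' = ρ ∘ ε` for some `ρ ∈ Aut (Ω / E)`.

PROOF.  `R₁ = ε.fieldRange`, `R₂ = ε'.fieldRange` (intermediate fields of `Ω / E`), `τ : R₁ ≃ₐ[E] R₂` the composition of `(AlgEquiv.ofInjectiveField ε).symm` and `AlgEquiv.ofInjectiveField ε'`.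
Choose transcendence bases `v₁ : ι₁ → Ω` of `Ω / R₁`, `v₂ : ι₂ → Ω` of `Ω / R₂` (`exists_isTranscendenceBasis'`).
`fun _ : Unit => (⟨ε x, _⟩ : R₁)` is a transcendence basis of `R₁ / E` (transport `hx` along the isomorphism `M ≃ₐ[E] R₁`: `AlgEquiv.isTranscendenceBasis`/`IsTranscendenceBasis.of_comp`-type lemmas),
so `Sum.elim v₁ (fun _ => ε x)` is a transcendence basis of `Ω / E` (`IsTranscendenceBasis.sumElim_comp`); the same for `ε'`.  Two transcendence bases have the same cardinality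
(`IsTranscendenceBasis.cardinalMk_eq` / `lift_cardinalMk_eq`), so `#ι₁ + 1 = #ι₂ + 1`, so `#ι₁ = #ι₂` (`Cardinal.add_one_inj`; take both index types in the universe of `Ω`, e.g. subsets of `Ω`), which gives `π : ι₁ ≃ ι₂` (`Cardinal.eq`).
`exists_extend τ h₁ h₂ π` gives `σ : Ω ≃+* Ω` with `σ (ε z) = ε' z`; it is `E`-linear because `algebraMap E Ω a = ε (algebraMap E M a)`.
-/

namespace Fermat.Agent.DIV

open Cardinal

theorem emb_basis {E M Ω : Type*} [Field E] [Field M] [Field Ω] [Algebra E M]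
    [Algebra E Ω] (x : M) (hx : IsTranscendenceBasis E (fun _ : Unit => x))
    (ε : M →ₐ[E] Ω) {s : Set Ω} (hs : IsTranscendenceBasis ε.fieldRange ((↑) : s → Ω)) :
    IsTranscendenceBasis E (Sum.elim ((↑) : s → Ω) (fun _ : Unit => ε x)) := by
  have h1 : IsTranscendenceBasis E
      (fun _ : Unit => (AlgEquiv.ofInjectiveField ε x : ε.fieldRange)) :=
    (AlgEquiv.ofInjectiveField ε).isTranscendenceBasis hx
  exact h1.sumElim_comp hs

theorem exists_aut_of_embeddings {E M Ω : Type*} [Field E] [Field M] [Field Ω] [Algebra E M]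
    [Algebra E Ω] [IsAlgClosed Ω] (x : M) (hx : IsTranscendenceBasis E (fun _ : Unit => x))
    (ε ε' : M →ₐ[E] Ω) : ∃ ρ : Ω ≃ₐ[E] Ω, ∀ z, ρ (ε z) = ε' z := by
  obtain ⟨s, hs⟩ := exists_isTranscendenceBasis ε.fieldRange Ω
  obtain ⟨s', hs'⟩ := exists_isTranscendenceBasis ε'.fieldRange Ω
  have h1 := emb_basis x hx ε hs
  have h2 := emb_basis x hx ε' hs'
  have h3 := h1.cardinalMk_eq h2
  rw [mk_sum, mk_sum] at h3
  simp only [mk_fintype, Fintype.card_unit, Nat.cast_one, lift_one] at h3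
  have h4 : #s = #s' := by
    have := Cardinal.add_one_inj.1 h3
    rwa [lift_uzero, lift_uzero] at this
  obtain ⟨π⟩ := Cardinal.eq.1 h4
  let τ : ε.fieldRange ≃ₐ[E] ε'.fieldRange :=
    (AlgEquiv.ofInjectiveField ε).symm.trans (AlgEquiv.ofInjectiveField ε')
  obtain ⟨σ, hσ, -⟩ := exists_extend τ.toRingEquiv hs hs' π
  have key : ∀ z, σ (ε z) = ε' z := by
    intro z
    have h5 := hσ (AlgEquiv.ofInjectiveField ε z)
    have h6 : τ.toRingEquiv (AlgEquiv.ofInjectiveField ε z) = AlgEquiv.ofInjectiveField ε' z := by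
      show AlgEquiv.ofInjectiveField ε' ((AlgEquiv.ofInjectiveField ε).symm
        (AlgEquiv.ofInjectiveField ε z)) = _
      rw [AlgEquiv.symm_apply_apply]
    rw [h6] at h5
    exact h5
  refine ⟨AlgEquiv.ofRingEquiv (f := σ) fun a => ?_, key⟩
  show σ (algebraMap E Ω a) = algebraMap E Ω a
  rw [← ε.commutes a, key, ε'.commutes, ε.commutes]

end Fermat.Agent.DIV
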