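import Fermat.Agent.DIV.Defs

set_option autoImplicit false

/-!
# DIV task DV1-Exchange : closure operator `cl` and the exchange lemma  (Mathlib only)

* `cl` is a closure operator: `subset_cl`, `cl_mono`, `cl_cl` (transitivity of algebraicity: `IsAlgebraic.trans`-type lemmas, `Algebra.IsAlgebraic.trans`,
  `IntermediateField.adjoin_le_iff`, `IsAlgebraic.tower_top`/`IsAlgebraic.extendScalars` for `adjoin ℚ T ≤ adjoin ℚ T'`).
* `exchange`: `t : Fin n → Ω` algebraically independent over `ℚ(T)`, all `t i ∈ cl (T ∪ V)`, `V` a finset with at most `n` elements.  Then `V` has exactly `n` elements and is algebraically independent over `ℚ(T)` (in particular over `ℚ`).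
  PROOF.  the matroid of algebraic independence over `k = adjoin ℚ T`: `range t` is independent and contained in the closure of `V`.
-/

namespace Fermat.Agent.DIV

open IntermediateField

variable {Ω : Type*} [Field Ω] [Algebra ℚ Ω]

/-- algebraicity only depends on the image of the base ring. -/
theorem exchange_isAlgebraic_of_range {K₁ K₂ : Type*} [Field K₁] [Field K₂] [Algebra K₁ Ω] [Algebra K₂ Ω]
    (h : ∀ a : K₁, ∃ b : K₂, algebraMap K₂ Ω b = algebraMap K₁ Ω a) {x : Ω} (hx : IsAlgebraic K₁ x) :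
    IsAlgebraic K₂ x := by
  have hx' : IsIntegral K₁ x := hx.isIntegral
  obtain ⟨p, hp, hpx⟩ := hx'
  have hl : p.map (algebraMap K₁ Ω) ∈ Polynomial.lifts (algebraMap K₂ Ω) := by
    rw [Polynomial.lifts_iff_coeff_lifts]
    intro n
    rw [Polynomial.coeff_map]
    obtain ⟨b, hb⟩ := h (p.coeff n)
    exact ⟨b, hb⟩
  obtain ⟨q, hq, -, hqm⟩ := Polynomial.lifts_and_degree_eq_and_monic hl (hp.map _)
  refine IsIntegral.isAlgebraic ⟨q, hqm, ?_⟩
  rw [← Polynomial.eval_map, hq, Polynomial.eval_map]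
  exact hpx

theorem exchange_isAlgebraic_of_le {K₁ K₂ : IntermediateField ℚ Ω} (h : K₁ ≤ K₂) {x : Ω}
    (hx : IsAlgebraic K₁ x) : IsAlgebraic K₂ x :=
  exchange_isAlgebraic_of_range (fun a => ⟨⟨a.1, h a.2⟩, rfl⟩) hx

theorem subset_cl (T : Set Ω) : T ⊆ cl T := by
  intro x hx
  rw [SetLike.mem_coe, mem_cl]
  exact isAlgebraic_algebraMap (⟨x, subset_adjoin ℚ T hx⟩ : adjoin ℚ T)

theorem cl_mono {T T' : Set Ω} (h : T ⊆ T') : cl T ≤ cl T' := by
  intro x hx
  rw [mem_cl] at hx ⊢
  exact exchange_isAlgebraic_of_le (adjoin.mono ℚ T T' h) hx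

/-- an element algebraic over `ℚ(x)`, `x ∈ cl T`, lies in `cl T`; more generally roots of non zero polynomials with coefficients in `cl T`. -/
theorem mem_cl_of_isAlgebraic {T : Set Ω} {x : Ω} (hx : IsAlgebraic (cl T) x) : x ∈ cl T := by
  rw [mem_cl]
  have h1 : IsAlgebraic (algebraicClosure (adjoin ℚ T) Ω) x :=
    exchange_isAlgebraic_of_range (fun a => ⟨⟨a.1, a.2⟩, rfl⟩) hx
  exact h1.restrictScalars (adjoin ℚ T)

theorem cl_cl (T : Set Ω) : cl (cl T : Set Ω) = cl T := by
  apply le_antisymm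
  · intro x hx
    rw [mem_cl, adjoin_self] at hx
    exact mem_cl_of_isAlgebraic hx
  · exact subset_cl (cl T : Set Ω)

theorem fixer_mono {T T' : Set Ω} (h : T ⊆ T') : fixer T' ≤ fixer T := by
  intro σ hσ
  rw [mem_fixer] at hσ ⊢
  exact fun x hx => hσ x (cl_mono h hx)

theorem algebraicIndependent_rat_of_adjoin {T : Set Ω} {ι : Type*} {t : ι → Ω}
    (ht : AlgebraicIndependent (adjoin ℚ T) t) : AlgebraicIndependent ℚ t :=
  ht.restrictScalars (algebraMap ℚ (adjoin ℚ T)).injective

/-- independence over `ℚ(T)`: no member is algebraic over `ℚ(T)` and the previous ones. -/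
theorem not_mem_cl_of_algebraicIndependent {n : ℕ} {t : Fin n → Ω}
    (ht : AlgebraicIndependent ℚ t) (k : Fin n) : t k ∉ cl (t '' {i | i < k}) := by
  intro h
  rw [mem_cl, isAlgebraic_adjoin_iff] at h
  exact ht.transcendental_adjoin (s := {i | i < k}) (i := k) (by simp) h

theorem exchange {T : Set Ω} {n : ℕ} {t : Fin n → Ω} (ht : AlgebraicIndependent (adjoin ℚ T) t)
    (V : Finset Ω) (hV : V.card ≤ n) (h : ∀ i, t i ∈ cl (T ∪ (V : Set Ω))) :
    V.card = n ∧ AlgebraicIndependent ℚ ((↑) : V → Ω) := by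
  let Mat := AlgebraicIndependent.matroid (adjoin ℚ T) Ω
  have hI : Mat.Indep (Set.range t) := by
    rw [AlgebraicIndependent.matroid_indep_iff]
    exact ht.to_subtype_range
  have hsub : Set.range t ⊆ Mat.closure (V : Set Ω) := by
    rintro _ ⟨i, rfl⟩
    rw [AlgebraicIndependent.matroid_closure_eq, SetLike.mem_coe, Subalgebra.mem_algebraicClosure,
      ← isAlgebraic_adjoin_iff]
    have h1 := h i
    rw [mem_cl] at h1
    refine exchange_isAlgebraic_of_range (fun a => ?_) h1
    have h2 : ∀ y : Ω, y ∈ adjoin ℚ (T ∪ (V : Set Ω)) → y ∈ adjoin (adjoin ℚ T) (V : Set Ω) := by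
      intro y hy
      rw [← adjoin_adjoin_left ℚ T (V : Set Ω)] at hy
      exact hy
    exact ⟨⟨a.1, h2 a.1 a.2⟩, rfl⟩
  have hcard : (Set.range t).encard = n := by
    rw [← Set.image_univ, ht.injective.encard_image, Set.encard_univ]
    simp
  have h1 : (n : ℕ∞) ≤ Mat.eRk (V : Set Ω) := by
    rw [← hcard, ← hI.eRk_eq_encard, ← Mat.eRk_closure_eq (V : Set Ω)]
    exact Mat.eRk_mono hsub
  have h2 : Mat.eRk (V : Set Ω) ≤ (V.card : ℕ∞) := by
    rw [← Set.encard_coe_eq_coe_finsetCard]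
    exact Mat.eRk_le_encard _
  have h3 : V.card = n := by
    have : (n : ℕ∞) ≤ (V.card : ℕ∞) := h1.trans h2
    exact le_antisymm hV (by exact_mod_cast this)
  refine ⟨h3, ?_⟩
  have h4 : Mat.Indep (V : Set Ω) := by
    rw [Matroid.indep_iff_eRk_eq_encard_of_finite V.finite_toSet, Set.encard_coe_eq_coe_finsetCard]
    apply le_antisymm h2
    rw [h3]
    exact h1
  rw [AlgebraicIndependent.matroid_indep_iff] at h4
  have h5 : AlgebraicIndependent (adjoin ℚ T) (fun x : V => (x : Ω)) := h4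
  exact algebraicIndependent_rat_of_adjoin h5

end Fermat.Agent.DIV
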