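import Mathlib

set_option autoImplicit false

/-!
# DIV task DV4-Ext : extending isomorphisms of subfields to an algebraically closed field  (Mathlib only)

`exists_extend`: `K` algebraically closed, `R₁`, `R₂` two fields with `K` an algebra over both, `τ : R₁ ≃+* R₂`, `v₁`, `v₂` transcendence bases of `K` over `R₁`, `R₂`, `π` a bijection of the index sets.
Then there is a ring automorphism of `K` which induces `τ` on `R₁` and maps `v₁ i` to `v₂ (π i)`.

PROOF: copy `Fermat.Agent.NV.Orbit.exists_shift` (file `Fermat/Agent/NV/Orbit.lean`, 40 lines):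
`letI := IsAlgClosed.isAlgClosure_of_transcendence_basis v₁ h₁` (and the same for `v₂`) : `K` is an algebraic closure of the ring `Algebra.adjoin R_i (Set.range v_i)`;
`e : adjoin R₁ (range v₁) ≃+* adjoin R₂ (range v₂)` is the composition of `h₁.1.aevalEquiv.symm`, `MvPolynomial.mapEquiv _ τ`, `MvPolynomial.renameEquiv _ π` and `h₂.1.aevalEquiv` (all as ring isomorphisms);
`σ = IsAlgClosure.equivOfEquiv K K e`, `IsAlgClosure.equivOfEquiv_algebraMap`, `AlgebraicIndependent.algebraMap_aevalEquiv`, `MvPolynomial.aeval_X`, `aeval_C`.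
-/

namespace Fermat.Agent.DIV

open MvPolynomial

theorem exists_extend {R₁ R₂ K : Type*} [Field R₁] [Field R₂] [Field K] [IsAlgClosed K]
    [Algebra R₁ K] [Algebra R₂ K] (τ : R₁ ≃+* R₂) {ι₁ ι₂ : Type*} {v₁ : ι₁ → K} {v₂ : ι₂ → K}
    (h₁ : IsTranscendenceBasis R₁ v₁) (h₂ : IsTranscendenceBasis R₂ v₂) (π : ι₁ ≃ ι₂) :
    ∃ σ : K ≃+* K, (∀ a : R₁, σ (algebraMap R₁ K a) = algebraMap R₂ K (τ a)) ∧
      ∀ i, σ (v₁ i) = v₂ (π i) := by
  classical
  letI := IsAlgClosed.isAlgClosure_of_transcendence_basis v₁ h₁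
  letI := IsAlgClosed.isAlgClosure_of_transcendence_basis v₂ h₂
  let e : Algebra.adjoin R₁ (Set.range v₁) ≃+* Algebra.adjoin R₂ (Set.range v₂) :=
    ((h₁.1.aevalEquiv.symm.toRingEquiv.trans (MvPolynomial.mapEquiv ι₁ τ)).trans
      (MvPolynomial.renameEquiv R₂ π).toRingEquiv).trans h₂.1.aevalEquiv.toRingEquiv
  have heC : ∀ a : R₁, e (h₁.1.aevalEquiv (C a)) = h₂.1.aevalEquiv (C (τ a)) := by
    intro a
    show h₂.1.aevalEquiv (MvPolynomial.renameEquiv R₂ π (MvPolynomial.mapEquiv ι₁ τ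
      (h₁.1.aevalEquiv.symm (h₁.1.aevalEquiv (C a))))) = _
    rw [AlgEquiv.symm_apply_apply]
    simp
  have heX : ∀ i : ι₁, e (h₁.1.aevalEquiv (X i)) = h₂.1.aevalEquiv (X (π i)) := by
    intro i
    show h₂.1.aevalEquiv (MvPolynomial.renameEquiv R₂ π (MvPolynomial.mapEquiv ι₁ τ
      (h₁.1.aevalEquiv.symm (h₁.1.aevalEquiv (X i))))) = _
    rw [AlgEquiv.symm_apply_apply]
    simp
  refine ⟨IsAlgClosure.equivOfEquiv K K e, ?_, ?_⟩
  · intro a
    have h1 : algebraMap R₁ K a = algebraMap (Algebra.adjoin R₁ (Set.range v₁)) K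
        (h₁.1.aevalEquiv (C a)) := by
      rw [AlgebraicIndependent.algebraMap_aevalEquiv, aeval_C]
    rw [h1, IsAlgClosure.equivOfEquiv_algebraMap, heC,
      AlgebraicIndependent.algebraMap_aevalEquiv, aeval_C]
  · intro i
    have h1 : v₁ i = algebraMap (Algebra.adjoin R₁ (Set.range v₁)) K
        (h₁.1.aevalEquiv (X i)) := by
      rw [AlgebraicIndependent.algebraMap_aevalEquiv, aeval_X]
    conv_lhs => rw [h1]
    rw [IsAlgClosure.equivOfEquiv_algebraMap, heX,
      AlgebraicIndependent.algebraMap_aevalEquiv, aeval_X]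

end Fermat.Agent.DIV
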