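import Fermat.Agent.DIV.Val

set_option autoImplicit false

/-!
# DIV task DV8-Smooth : a place is determined by its centre at a smooth point of a plane model

`F = K(x, y)`, `Φ(x, y) = 0`; `v`, `w` two places at which `x`, `y` are regular, with the same values `(s, y₀)`, and `∂Φ/∂Y (s, y₀) ≠ 0`.  Then `v = w`.

PROOF (elementary; no completions).  Notation: for `Ψ : K[X][Y]` put `Ψ(x,y) = aevalAeval x y Ψ`; its value at `v` and at `w` is `Ψ.evalEval s y₀` (`valAt_aevalAeval`).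
1. (Taylor) For every `Ψ : K[X][Y]` there are `A B : K[X][Y]` with `Ψ = C (C (Ψ.evalEval s y₀)) + C (X - C s) * A + (X - C (C y₀)) * B`   (outer `X` = `Y`), and one may take `B` with `B.evalEval s y₀ = (derivative Ψ).evalEval s y₀`
   [`Ψ - C (Ψ.eval (C y₀)) = (Y - C (C y₀)) * B` (`Polynomial.X_sub_C_dvd_sub_C_eval` / `Polynomial.mul_divByMonic_eq_iff_isRoot`, `B = Ψ /ₘ (Y - C (C y₀))`-style), and `p := Ψ.eval (C y₀) : K[X]` satisfies `p - C (p.eval s) = (X - C s) * a`;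
   differentiating the first identity and evaluating at `Y = C y₀` gives `(derivative Ψ).eval (C y₀) = B.eval (C y₀)`].
2. Apply 1 to `Φ`: `Φ.evalEval s y₀ = 0` (value of `Φ(x,y) = 0`), so `c * (y - y₀) = - (x - s) * a` with `c = B_Φ(x,y)`, `a = A_Φ(x,y)`, and the value of `c` at `v` and at `w` is `∂Φ/∂Y (s,y₀) ≠ 0`.
3. Hence for every `Ψ` with `Ψ.evalEval s y₀ = 0` there is `Ψ'` with `c * Ψ(x,y) = (x - s) * Ψ'(x,y)`   (`Ψ' = B_Φ * A_Ψ - A_Φ * B_Ψ`).
4. `x ≠ s` (otherwise `F = K(y)`... simpler: if `x - s = 0` then 3 shows that every `Ψ(x,y)` with value `0` is `0`, so `v.ord` would be `0` on the ring `K[x,y]∖0`, hence on `F∖0`, contradicting `S24.exists_ord_eq_one`), so `0 < v.ord (x - s)` and `0 < w.ord (x - s)` (`ord_sub_valAt_pos`).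
5. By strong induction on `n = v.ord (Ψ(x,y))` (`≥ 0`): every `Ψ` with `Ψ(x,y) ≠ 0` satisfies `c ^ k * Ψ(x,y) = (x - s) ^ k * Ψ'(x,y)` for some `k` and `Ψ'` with `Ψ'.evalEval s y₀ ≠ 0`.
   So `Ψ(x,y) = (x - s) ^ k * u` with `v.ord u = 0 = w.ord u` (`ord_eq_zero_of_valAt_ne_zero`).
6. Every `f ≠ 0` in `F` is a quotient `Ψ₁(x,y) / Ψ₂(x,y)` (`IntermediateField.mem_adjoin_iff_div`, `Algebra.adjoin_pair`-type description: the range of `aevalAeval x y` is a subalgebra containing `x`, `y`, so it contains `Algebra.adjoin K {x, y}`), so `f = (x - s) ^ (k : ℤ) * u`, `v.ord u = 0 = w.ord u`; thus `0 ≤ v.ord f ↔ 0 ≤ k ↔ 0 ≤ w.ord f`.  Conclude with `S24.place_ext_of_le`, `S24.mem_iff_ord_nonneg`.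
-/

namespace Fermat.Agent.DIV

open AlgebraicCurve Fermat.Agent.S24 Polynomial
open scoped Polynomial.Bivariate

variable {K F : Type*} [Field K] [Field F] [Algebra K F] [IsAlgClosed K] (h : IsFF1 K F)

/-- Taylor expansion of order one at `(s, y₀)`. -/
theorem smooth_taylor (s y₀ : K) (Ψ : K[X][Y]) : ∃ A B : K[X][Y],
    Ψ = C (C (Ψ.evalEval s y₀)) + C (X - C s) * A + (X - C (C y₀)) * B ∧
      B.evalEval s y₀ = (derivative Ψ).evalEval s y₀ := by
  set c : K[X] := C y₀ with hc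
  set B : K[X][Y] := Ψ /ₘ (X - C c) with hB
  have h1 : Ψ = C (Ψ.eval c) + (X - C c) * B := by
    have := modByMonic_add_div Ψ (X - C c)
    rw [modByMonic_X_sub_C_eq_C_eval] at this
    exact this.symm
  set p : K[X] := Ψ.eval c with hp
  have h2 : p = C (p.eval s) + (X - C s) * (p /ₘ (X - C s)) := by
    have := modByMonic_add_div p (X - C s)
    rw [modByMonic_X_sub_C_eq_C_eval] at this
    exact this.symm
  refine ⟨C (p /ₘ (X - C s)), B, ?_, ?_⟩
  · have h3 : Ψ.evalEval s y₀ = p.eval s := rfl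
    rw [h3, ← C_mul, ← C_add, ← h2]
    exact h1
  · have h4 : derivative Ψ = B + (X - C c) * derivative B := by
      conv_lhs => rw [h1]
      rw [derivative_add, derivative_C, derivative_mul, derivative_sub, derivative_X,
        derivative_C]
      ring
    show (B.eval c).eval s = ((derivative Ψ).eval c).eval s
    rw [h4, eval_add, eval_mul, eval_sub, eval_X, eval_C, sub_self, zero_mul, add_zero]

theorem smooth_ev_taylor {x y : F} (s y₀ : K) {Ψ A B : K[X][Y]}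
    (hΨ : Ψ = C (C (Ψ.evalEval s y₀)) + C (X - C s) * A + (X - C (C y₀)) * B) :
    aevalAeval x y Ψ = algebraMap K F (Ψ.evalEval s y₀) +
      (x - algebraMap K F s) * aevalAeval x y A + (y - algebraMap K F y₀) * aevalAeval x y B := by
  conv_lhs => rw [hΨ]
  simp only [map_add, map_mul, map_sub, aevalAeval_C, aevalAeval_Y, aeval_C, aeval_X]

theorem eq_of_same_centre {x y : F} (htop : IntermediateField.adjoin K {x, y} = ⊤)
    (Φ : K[X][Y]) (hΦ : aevalAeval x y Φ = 0) (v w : Place K F)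
    (hxv : x ∈ v.toValuationSubring) (hyv : y ∈ v.toValuationSubring)
    (hxw : x ∈ w.toValuationSubring) (hyw : y ∈ w.toValuationSubring)
    (hx : valAt h v x = valAt h w x) (hy : valAt h v y = valAt h w y)
    (hsm : (derivative Φ).evalEval (valAt h v x) (valAt h v y) ≠ 0) : v = w := by
  set s := valAt h v x with hs
  set y₀ := valAt h v y with hy₀
  set X₀ : F := x - algebraMap K F s with hX₀
  -- values
  have hvalv : ∀ Ψ : K[X][Y], valAt h v (aevalAeval x y Ψ) = Ψ.evalEval s y₀ :=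
    fun Ψ => valAt_aevalAeval h v hxv hyv Ψ
  have hvalw : ∀ Ψ : K[X][Y], valAt h w (aevalAeval x y Ψ) = Ψ.evalEval s y₀ := by
    intro Ψ
    rw [valAt_aevalAeval h w hxw hyw Ψ, ← hx, ← hy]
  -- the relation coming from `Φ`
  obtain ⟨AΦ, BΦ, hT, hBΦ⟩ := smooth_taylor s y₀ Φ
  have hΦ0 : Φ.evalEval s y₀ = 0 := by rw [← hvalv, hΦ, valAt_zero]
  have hrel := smooth_ev_taylor (x := x) (y := y) s y₀ hT
  rw [hΦ, hΦ0, map_zero, zero_add] at hrel
  set c : F := aevalAeval x y BΦ with hc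
  set a : F := aevalAeval x y AΦ with ha
  have hcv : valAt h v c ≠ 0 := by rw [hc, hvalv, hBΦ]; exact hsm
  have hcw : valAt h w c ≠ 0 := by rw [hc, hvalw, hBΦ]; exact hsm
  have hc0 : c ≠ 0 := by
    intro h0
    rw [h0, valAt_zero] at hcv
    exact hcv rfl
  -- step 3
  have step : ∀ Ψ : K[X][Y], Ψ.evalEval s y₀ = 0 →
      ∃ Ψ' : K[X][Y], c * aevalAeval x y Ψ = X₀ * aevalAeval x y Ψ' := by
    intro Ψ h0
    obtain ⟨A, B, hT', -⟩ := smooth_taylor s y₀ Ψ
    have h1 := smooth_ev_taylor (x := x) (y := y) s y₀ hT'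
    rw [h0, map_zero, zero_add] at h1
    refine ⟨BΦ * A - AΦ * B, ?_⟩
    rw [h1, map_sub, map_mul, map_mul, ← hc, ← ha]
    linear_combination (-(aevalAeval x y B)) * hrel
  -- step 5
  have key : ∀ (n : ℕ) (Ψ : K[X][Y]), aevalAeval x y Ψ ≠ 0 → v.ord (aevalAeval x y Ψ) ≤ n →
      ∃ (k : ℕ) (Ψ' : K[X][Y]), c ^ k * aevalAeval x y Ψ = X₀ ^ k * aevalAeval x y Ψ' ∧
        Ψ'.evalEval s y₀ ≠ 0 := by
    intro n
    induction n with
    | zero =>
      intro Ψ hne hord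
      refine ⟨0, Ψ, by simp, ?_⟩
      intro h0
      rw [← hvalv, valAt_eq_zero_iff h v (aevalAeval_mem v hxv hyv Ψ) hne] at h0
      simp only [Nat.cast_zero] at hord
      omega
    | succ n ih =>
      intro Ψ hne hord
      by_cases h0 : Ψ.evalEval s y₀ = 0
      · obtain ⟨Ψ₁, h1⟩ := step Ψ h0
        have hprod : X₀ * aevalAeval x y Ψ₁ ≠ 0 := by
          rw [← h1]
          exact mul_ne_zero hc0 hne
        have hX0 : X₀ ≠ 0 := left_ne_zero_of_mul hprod
        have hne1 : aevalAeval x y Ψ₁ ≠ 0 := right_ne_zero_of_mul hprod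
        have hXpos : 0 < v.ord X₀ := ord_sub_valAt_pos h v hxv (sub_ne_zero.1 hX0)
        have h2 := congrArg v.ord h1
        rw [v.ord_mul hc0 hne, v.ord_mul hX0 hne1, ord_eq_zero_of_valAt_ne_zero h v hcv] at h2
        obtain ⟨k, Ψ', h3, h4⟩ := ih Ψ₁ hne1 (by push_cast at hord; omega)
        refine ⟨k + 1, Ψ', ?_, h4⟩
        linear_combination (c ^ k) * h1 + X₀ * h3
      · exact ⟨0, Ψ, by simp, h0⟩
  have key2 : ∀ Ψ : K[X][Y], aevalAeval x y Ψ ≠ 0 → ∃ k : ℕ,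
      v.ord (aevalAeval x y Ψ) = k * v.ord X₀ ∧ w.ord (aevalAeval x y Ψ) = k * w.ord X₀ := by
    intro Ψ hne
    obtain ⟨k, Ψ', h1, h2⟩ := key (v.ord (aevalAeval x y Ψ)).toNat Ψ hne (Int.self_le_toNat _)
    have hprod : X₀ ^ k * aevalAeval x y Ψ' ≠ 0 := by
      rw [← h1]
      exact mul_ne_zero (pow_ne_zero k hc0) hne
    have hXk : X₀ ^ k ≠ 0 := left_ne_zero_of_mul hprod
    have hne' : aevalAeval x y Ψ' ≠ 0 := right_ne_zero_of_mul hprod
    refine ⟨k, ?_, ?_⟩
    · have h3 := congrArg v.ord h1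
      rw [v.ord_mul (pow_ne_zero k hc0) hne, v.ord_mul hXk hne', ord_pow, ord_pow,
        ord_eq_zero_of_valAt_ne_zero h v hcv,
        ord_eq_zero_of_valAt_ne_zero h v (f := aevalAeval x y Ψ') (by rw [hvalv]; exact h2)] at h3
      linarith
    · have h3 := congrArg w.ord h1
      rw [w.ord_mul (pow_ne_zero k hc0) hne, w.ord_mul hXk hne', ord_pow, ord_pow,
        ord_eq_zero_of_valAt_ne_zero h w hcw,
        ord_eq_zero_of_valAt_ne_zero h w (f := aevalAeval x y Ψ') (by rw [hvalw]; exact h2)] at h3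
      linarith
  -- the ring `K[x,y]`
  have hadj : ∀ r ∈ Algebra.adjoin K ({x, y} : Set F), ∃ Ψ : K[X][Y], aevalAeval x y Ψ = r := by
    have : Algebra.adjoin K ({x, y} : Set F) ≤ (aevalAeval x y : K[X][Y] →ₐ[K] F).range := by
      rw [Algebra.adjoin_le_iff]
      rintro z (rfl | rfl)
      · exact ⟨C X, aevalAeval_X _ _⟩
      · exact ⟨X, aevalAeval_Y _ _⟩
    intro r hr
    exact this hr
  apply place_ext_of_le
  intro f hf
  rcases eq_or_ne f 0 with rfl | hf0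
  · exact zero_mem _
  have hftop : f ∈ IntermediateField.adjoin K ({x, y} : Set F) := by
    rw [htop]; exact IntermediateField.mem_top
  obtain ⟨r, hr, t, ht, rfl⟩ := IntermediateField.mem_adjoin_iff_div.1 hftop
  obtain ⟨Ψ₁, rfl⟩ := hadj r hr
  obtain ⟨Ψ₂, rfl⟩ := hadj t ht
  have hne1 : aevalAeval x y Ψ₁ ≠ 0 := fun h0 => hf0 (by rw [h0, zero_div])
  have hne2 : aevalAeval x y Ψ₂ ≠ 0 := fun h0 => hf0 (by rw [h0, div_zero])
  obtain ⟨k₁, hv1, hw1⟩ := key2 Ψ₁ hne1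
  obtain ⟨k₂, hv2, hw2⟩ := key2 Ψ₂ hne2
  rw [mem_iff_ord_nonneg, ord_div v hne1 hne2, hv1, hv2] at hf
  rw [mem_iff_ord_nonneg, ord_div w hne1 hne2, hw1, hw2]
  by_cases hX0 : X₀ = 0
  · rw [hX0, Place.ord_zero]
    simp
  · have hXv : 0 < v.ord X₀ := ord_sub_valAt_pos h v hxv (sub_ne_zero.1 hX0)
    have hXw : 0 < w.ord X₀ := by
      have : X₀ = x - algebraMap K F (valAt h w x) := by rw [← hx]
      rw [this]
      apply ord_sub_valAt_pos h w hxw
      rw [← hx]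
      exact sub_ne_zero.1 hX0
    have h5 : 0 ≤ ((k₁ : ℤ) - k₂) * v.ord X₀ := by linarith
    have h6 : 0 ≤ (k₁ : ℤ) - k₂ := by
      by_contra hneg
      rw [not_le] at hneg
      have := mul_neg_of_neg_of_pos hneg hXv
      omega
    have h7 : 0 ≤ ((k₁ : ℤ) - k₂) * w.ord X₀ := mul_nonneg h6 hXw.le
    linarith

end Fermat.Agent.DIV
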