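import Fermat.Agent.DIV.Val
import Fermat.Agent.DIV.Emb

set_option autoImplicit false

/-!
# DIV tasks DV9-Triv and DV10-Conj : generic places over a subfield `E` of the constants

`E` a field, `E → K → F`.  Let `v` be a place at which `x` is regular with a value `a` which is transcendental over `E`.

## DV9-Triv
`mem_of_isAlgebraic`: every `f : F` which is algebraic over `E(x)` is regular at `v`.
 1. for `p : E[X]`, `p ≠ 0`: `aeval x p = aeval x (p.map (algebraMap E K))` is regular with value `aeval a p ≠ 0` (`aeval_mem`, `valAt_aeval`, `Polynomial.aeval_map_algebraMap`, `Polynomial.eval_map_algebraMap`), so its inverse is regular (`inv_mem_of_valAt_ne_zero`);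
 2. so `E(x) ⊆ O_v` (`IntermediateField.mem_adjoin_simple_iff`);
 3. `f` is integral over the field `E(x)`, hence over `O_v` (`IsIntegral.map_of_comp_eq` with the inclusion `E(x) →+* O_v`, exactly as at the end of `S24.Residue.isAlgebraic_residueField` in `Fermat/Agent/S24/Residue.lean`), and `O_v` is integrally closed in `F` (`IsIntegrallyClosed.isIntegral_iff`).
`Mx E x` is the field of these `f`; `evM` is the `E`-algebra hom `f ↦ valAt h v f` on it (`valAt_add`, `valAt_mul`, `valAt_algebraMap`, `IsScalarTower.algebraMap_apply E K F`).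
`isTranscendenceBasis_Mx`: `x` is a transcendence basis of `Mx E x` over `E` (`isTranscendenceBasis_iff_algebraicIndependent_isAlgebraic`, `algebraicIndependent_unique_type_iff`; algebraic over the field `E(x)` ⇒ algebraic over the ring `Algebra.adjoin E {x}`, whose fraction field it is:
 `IsFractionRing.isAlgebraic_iff`/`IntermediateField.algebraAdjoinAdjoin`; compare `S24.isTranscendenceBasis_unit` and `S24.IsFF1.isAlgebraic` in `Fermat/Agent/S24/FF1.lean`).

## DV10-Conj
`exists_aut_conj`: apply `exists_aut_of_embeddings` to `M = Mx E x`, `ε = evM .. v`, `ε' = evM .. w`.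
-/

namespace Fermat.Agent.DIV

open AlgebraicCurve Fermat.Agent.S24 Polynomial IntermediateField
open scoped IntermediateField.algebraAdjoinAdjoin

variable {K F : Type*} [Field K] [Field F] [Algebra K F] [IsAlgClosed K] (h : IsFF1 K F)
  {E : Type*} [Field E] [Algebra E K] [Algebra E F] [IsScalarTower E K F]

/-- the elements of `F` which are algebraic over `E(x)`. -/
noncomputable def Mx (E : Type*) {F : Type*} [Field E] [Field F] [Algebra E F] (x : F) :
    IntermediateField E F :=
  (algebraicClosure (adjoin E {x}) F).restrictScalars E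

theorem mem_Mx {x f : F} : f ∈ Mx E x ↔ IsAlgebraic (adjoin E {x}) f := by
  rw [Mx, IntermediateField.mem_restrictScalars, mem_algebraicClosure_iff]

theorem self_mem_Mx (x : F) : x ∈ Mx E x := by
  rw [mem_Mx]
  exact isAlgebraic_algebraMap (⟨x, mem_adjoin_simple_self E x⟩ : adjoin E {x})

theorem triv_aeval_mem (v : Place K F) {x : F} (hx : x ∈ v.toValuationSubring) (p : E[X]) :
    aeval x p ∈ v.toValuationSubring := by
  rw [← aeval_map_algebraMap K x p]
  exact aeval_mem v hx _

theorem triv_valAt_aeval (v : Place K F) {x : F} (hx : x ∈ v.toValuationSubring) (p : E[X]) :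
    valAt h v (aeval x p) = aeval (valAt h v x) p := by
  rw [← aeval_map_algebraMap K x p, valAt_aeval h v hx, eval_map_algebraMap]

theorem triv_adjoin_le (v : Place K F) {x : F} (hx : x ∈ v.toValuationSubring)
    (htr : Transcendental E (valAt h v x)) {z : F} (hz : z ∈ adjoin E {x}) :
    z ∈ v.toValuationSubring := by
  obtain ⟨r, s, rfl⟩ := (mem_adjoin_simple_iff E z).1 hz
  by_cases hs : s = 0
  · simp [hs, zero_mem]
  rw [div_eq_mul_inv]
  refine mul_mem (triv_aeval_mem v hx r) (inv_mem_of_valAt_ne_zero h v ?_)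
  rw [triv_valAt_aeval h v hx]
  intro h0
  exact htr ⟨s, hs, h0⟩

theorem mem_of_isAlgebraic (v : Place K F) {x : F} (hx : x ∈ v.toValuationSubring)
    (htr : Transcendental E (valAt h v x)) {f : F} (hf : f ∈ Mx E x) :
    f ∈ v.toValuationSubring := by
  rw [mem_Mx] at hf
  have h1 : IsIntegral (adjoin E {x}) f := hf.isIntegral
  let φ : adjoin E {x} →+* v.toValuationSubring :=
    (algebraMap (adjoin E {x}) F).codRestrict v.toValuationSubring.toSubring
      fun z => triv_adjoin_le h v hx htr z.2
  have h2 : IsIntegral v.toValuationSubring f :=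
    IsIntegral.map_of_comp_eq φ (RingHom.id F) (by ext z; rfl) h1
  obtain ⟨y, hy⟩ := (IsIntegrallyClosed.isIntegral_iff (R := v.toValuationSubring) (K := F)).1 h2
  rw [← hy]
  exact y.2

/-- a non zero element of `Mx E x` has a non zero value. -/
theorem valAt_ne_zero_of_mem_Mx (v : Place K F) {x : F} (hx : x ∈ v.toValuationSubring)
    (htr : Transcendental E (valAt h v x)) {f : F} (hf : f ∈ Mx E x) (hf0 : f ≠ 0) :
    valAt h v f ≠ 0 := by
  intro h0
  have h1 := mem_of_isAlgebraic h v hx htr hf
  have h2 := mem_of_isAlgebraic h v hx htr (inv_mem hf)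
  have h3 := valAt_mul h v h1 h2
  rw [mul_inv_cancel₀ hf0, valAt_one, h0, zero_mul] at h3
  exact one_ne_zero h3

/-- evaluation on `Mx E x`. -/
theorem exists_evM (v : Place K F) {x : F} (hx : x ∈ v.toValuationSubring)
    (htr : Transcendental E (valAt h v x)) :
    ∃ ε : Mx E x →ₐ[E] K, ∀ f : Mx E x, ε f = valAt h v (f : F) := by
  have hm : ∀ f : Mx E x, (f : F) ∈ v.toValuationSubring :=
    fun f => mem_of_isAlgebraic h v hx htr f.2
  refine ⟨{ toFun := fun f => valAt h v (f : F)
            map_one' := valAt_one h v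
            map_mul' := fun f g => valAt_mul h v (hm f) (hm g)
            map_zero' := valAt_zero h v
            map_add' := fun f g => valAt_add h v (hm f) (hm g)
            commutes' := fun a => ?_ }, fun f => rfl⟩
  show valAt h v (algebraMap E F a) = algebraMap E K a
  rw [IsScalarTower.algebraMap_apply E K F, valAt_algebraMap]

theorem isTranscendenceBasis_Mx {x : F} (hx : Transcendental E x) :
    IsTranscendenceBasis E (fun _ : Unit => (⟨x, self_mem_Mx x⟩ : Mx E x)) := by
  set x' : Mx E x := ⟨x, self_mem_Mx x⟩ with hx'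
  have hx'tr : Transcendental E x' := by
    intro halg
    exact hx ((isAlgebraic_algHom_iff (Mx E x).val (Mx E x).val.injective (a := x')).2 halg)
  have hind : AlgebraicIndependent E (fun _ : Unit => x') :=
    algebraicIndependent_unique_type_iff.mpr hx'tr
  rw [hind.isTranscendenceBasis_iff_isAlgebraic]
  have hr : Set.range (fun _ : Unit => x') = {x'} := by simp
  rw [hr]
  have hmap : (Algebra.adjoin E {x'}).map (Mx E x).val = Algebra.adjoin E {x} := by
    rw [AlgHom.map_adjoin, Set.image_singleton]
    rfl
  let f : Algebra.adjoin E {x'} →+* Algebra.adjoin E {x} :=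
    (((Mx E x).val : Mx E x →+* F).comp (Algebra.adjoin E {x'}).val.toRingHom).codRestrict
      (Algebra.adjoin E {x}).toSubring fun r => by
        rw [← hmap]
        exact ⟨r.1, r.2, rfl⟩
  have hf : Function.Surjective f := by
    rintro ⟨s, hs⟩
    rw [← hmap] at hs
    obtain ⟨r, hr, rfl⟩ := hs
    exact ⟨⟨r, hr⟩, rfl⟩
  constructor
  intro a
  have ha : IsAlgebraic (adjoin E {x}) (a : F) := mem_Mx.1 a.2
  have ha' : IsAlgebraic (Algebra.adjoin E {x}) (a : F) :=
    (IsFractionRing.isAlgebraic_iff (Algebra.adjoin E {x}) (adjoin E {x}) F).2 ha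
  exact IsAlgebraic.of_ringHom_of_comp_eq f ((Mx E x).val : Mx E x →+* F) ha' hf
    (Mx E x).val.injective (by ext r; rfl)

/-- **DV10-Conj.**  Two generic places are conjugate, as far as the values of the functions in `Mx E x` are concerned. -/
theorem exists_aut_conj (v w : Place K F) {x : F} (hxv : x ∈ v.toValuationSubring)
    (hxw : x ∈ w.toValuationSubring) (hv : Transcendental E (valAt h v x))
    (hw : Transcendental E (valAt h w x)) :
    ∃ ρ : K ≃ₐ[E] K, ∀ f ∈ Mx E x, ρ (valAt h v f) = valAt h w f := by
  have hx : Transcendental E x := by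
    rintro ⟨p, hp, h0⟩
    apply hv
    refine ⟨p, hp, ?_⟩
    rw [← triv_valAt_aeval h v hxv, h0, valAt_zero]
  obtain ⟨ε, hε⟩ := exists_evM h v hxv hv
  obtain ⟨ε', hε'⟩ := exists_evM h w hxw hw
  obtain ⟨ρ, hρ⟩ := exists_aut_of_embeddings _ (isTranscendenceBasis_Mx hx) ε ε'
  refine ⟨ρ, fun f hf => ?_⟩
  have := hρ ⟨f, hf⟩
  rwa [hε, hε'] at this

end Fermat.Agent.DIV
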