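import Fermat.Agent.DIV.Exchange
import Fermat.Agent.NV.Orbit

set_option autoImplicit false

/-!
# DIV task DV6-Rich : an uncountable algebraically closed field of characteristic `0` is rich

* `orbit`: `x ∉ cl T` is transcendental over the field `cl T` (`mem_cl_of_isAlgebraic`).  `Fermat.Agent.NV.Orbit.exists_shift (R := cl T) x _ (n : cl T)` gives ring automorphisms `σ_n` of `Ω` fixing `cl T` with `σ_n x = x + n`; they are
  `ℚ`-algebra automorphisms (`AlgEquiv.ofRingEquiv`, `map_ratCast`; see the end of `Fermat/Agent/NV/Orbit.lean`) lying in `fixer T`; `n ↦ x + n` is injective (`Set.infinite_of_injective_forall_mem`).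
* `indep`: by induction on `n` for all finite `T`.  `adjoin ℚ T` is countable for finite (countable) `T`  (e.g. `IntermediateField.adjoin` = fractions of `Algebra.adjoin ℚ T`, which is a quotient of the countable ring `MvPolynomial T ℚ`; or search Mathlib for
  `cardinalMk_adjoin_le`), so `cl T` is countable (`Algebra.IsAlgebraic.cardinalMk_le_max`), so there is `x ∉ cl T`.
  From `t : Fin n → Ω` independent over `adjoin ℚ (insert x T)` and `x ∉ cl T` one gets `Fin.cons x t` independent over `adjoin ℚ T` (`AlgebraicIndependent` for `Option`/`Fin.cons`/`Sum`: `algebraicIndependent_fin_succ`-type lemmas, `AlgebraicIndependent.option_iff`, `AlgebraicIndependent.sumElim`, `IntermediateField.adjoin_adjoin_left`).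
  Alternative: `Algebra.trdeg`, `Algebra.trdeg_add_eq`, `IsAlgClosed.cardinal_eq_cardinal_transcendence_basis_of_aleph0_lt`.
-/

namespace Fermat.Agent.DIV

open IntermediateField

theorem rich_orbit {Ω : Type*} [Field Ω] [Algebra ℚ Ω] [IsAlgClosed Ω] (T : Set Ω) (x : Ω)
    (hx : x ∉ cl T) : (MulAction.orbit (fixer T) x).Infinite := by
  haveI : CharZero Ω := algebraRat.charZero Ω
  have htr : Transcendental (cl T) x := fun h => hx (mem_cl_of_isAlgebraic h)
  choose τ hτ1 hτ2 using fun n : ℕ => NV.Orbit.exists_shift (R := cl T) x htr (n : cl T)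
  have hσ : ∀ n : ℕ, (AlgEquiv.ofRingEquiv (f := τ n) (fun r => by
      rw [eq_ratCast]; exact map_ratCast (τ n) r) : Ω ≃ₐ[ℚ] Ω) ∈ fixer T :=
    fun n => mem_fixer.2 fun y hy => hτ1 n ⟨y, hy⟩
  refine Set.infinite_of_injective_forall_mem (f := fun n : ℕ => x + (n : Ω)) ?_ ?_
  · intro n m h
    exact_mod_cast add_left_cancel h
  · intro n
    refine ⟨⟨_, hσ n⟩, ?_⟩
    show τ n x = x + (n : Ω)
    rw [hτ2, map_natCast]

theorem rich_indep {Ω : Type*} [Field Ω] [Algebra ℚ Ω] [Uncountable Ω] (T : Set Ω)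
    (hT : T.Finite) (n : ℕ) : ∃ t : Fin n → Ω, AlgebraicIndependent (adjoin ℚ T) t := by
  obtain ⟨s, hs⟩ := exists_isTranscendenceBasis (adjoin ℚ T) Ω
  have hinf : s.Infinite := by
    intro hfin
    have halg := hs.isAlgebraic_field
    have h1 := Algebra.IsAlgebraic.cardinalMk_le_max
      (adjoin (adjoin ℚ T) (Set.range ((↑) : s → Ω))) Ω
    have h2 := cardinalMk_adjoin_le (adjoin ℚ T) (Set.range ((↑) : s → Ω))
    have h3 := lift_cardinalMk_adjoin_le ℚ T
    have h4 : Cardinal.mk (adjoin ℚ T) ≤ Cardinal.aleph0 := by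
      rw [Cardinal.lift_uzero] at h3
      refine h3.trans (sup_le (sup_le ?_ ?_) le_rfl)
      · exact Cardinal.lift_le_aleph0.2 Cardinal.mk_le_aleph0
      · rw [Cardinal.lift_uzero]
        exact (Cardinal.lt_aleph0_iff_set_finite.2 hT).le
    have h5 : Cardinal.mk (Set.range ((↑) : s → Ω)) ≤ Cardinal.aleph0 := by
      rw [Subtype.range_coe]
      exact (Cardinal.lt_aleph0_iff_set_finite.2 hfin).le
    have h6 : Cardinal.mk Ω ≤ Cardinal.aleph0 :=
      h1.trans (max_le (h2.trans (sup_le (sup_le h4 h5) le_rfl)) le_rfl)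
    exact not_countable (Cardinal.mk_le_aleph0_iff.1 h6)
  haveI : Infinite s := hinf.to_subtype
  exact ⟨fun i => ((Infinite.natEmbedding s (i : ℕ) : s) : Ω),
    hs.1.comp (fun i : Fin n => Infinite.natEmbedding s (i : ℕ))
      (fun i j h => Fin.ext ((Infinite.natEmbedding s).injective h))⟩

theorem rich_of_uncountable {Ω : Type*} [Field Ω] [Algebra ℚ Ω] [IsAlgClosed Ω] [Uncountable Ω] :
    Rich Ω :=
  ⟨rich_orbit, rich_indep⟩

end Fermat.Agent.DIV
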