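import Fermat.Agent.NV.PowC
import Fermat.Agent.NV.FinChar
import Fermat.Agent.NV.Kc.Exists

set_option autoImplicit false

/-!
# DIV task TOR-Torsion : `Pic⁰(F_ℂ)[m]` is finite

SKETCH.  For `x` with `m • x = 0` choose `D` of degree zero with `x = Pic0.mk D` (`Pic0.mk_surjective`); `m • D` is principal (`QuotientAddGroup.eq_zero_iff`, `AddSubgroup.mem_addSubgroupOf`,
`Divisor.mem_principal`): `f ≠ 0` with `m * D v = v.ord f` for all `v`.  So `C24.Ch.DivBy N m f`, and `f` has a character `χ` (`C24.Ch.exists_hasChar`) with `χ ^ m = 1` (`HasChar.pow_eq_one`).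
The map `x ↦ χ` to the finite set `{χ // χ ^ m = 1}` (`NV.finite_chr`) is injective (`Finite.of_injective`): if `x, x'` have the same `χ` then `f * f'⁻¹` has character `1` (`HasChar.mul`, `HasChar.inv`; see `NV.exists_descent`),
so `f * f'⁻¹ = w ^ m` (`NV.exists_pow_of_hasChar_one_C`), `w ≠ 0`; `m * (D v - D' v) = m * v.ord w`, so `D - D' = div w` and `x = x'` (`QuotientAddGroup.eq`, or `sub_eq_zero` + `eq_zero_iff`).
-/

namespace Fermat.Agent.DIV

open AlgebraicCurve Fermat.Agent.NV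
open Fermat.Agent.C24 (Kc)

namespace Tor

/-- the data attached to an `m`-torsion class. -/
theorem exists_data (N : ℕ) [NeZero N] (m : ℕ) (hm : 0 < m) (x : Pic0 Kc (C24.FN N))
    (hx : m • x = 0) :
    ∃ (D : Divisor.degZero (K := Kc) (F := C24.FN N)) (f : C24.FN N) (χ : Chr N),
      x = Pic0.mk D ∧ f ≠ 0 ∧ (∀ v, (m : ℤ) * (D : Divisor Kc (C24.FN N)) v = v.ord f) ∧
      C24.Ch.HasChar N m f χ ∧ χ ^ m = 1 := by
  obtain ⟨D, rfl⟩ := Pic0.mk_surjective x
  have h1 : Pic0.mk (m • D) = 0 := hx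
  have h2 : m • D ∈ (Divisor.principal (K := Kc) (F := C24.FN N)).addSubgroupOf
      (Divisor.degZero (K := Kc) (F := C24.FN N)) := (QuotientAddGroup.eq_zero_iff _).1 h1
  rw [AddSubgroup.mem_addSubgroupOf] at h2
  obtain ⟨f, hf, hD⟩ := h2
  have hD' : ∀ v, (m : ℤ) * (D : Divisor Kc (C24.FN N)) v = v.ord f := by
    intro v
    rw [← hD v]
    simp
  have hdiv : C24.Ch.DivBy N m f := fun v => ⟨_, (hD' v).symm⟩
  obtain ⟨χ, hχ⟩ := C24.Ch.exists_hasChar hm hf hdiv
  exact ⟨D, f, χ, rfl, hf, hD', hχ, hχ.pow_eq_one hm⟩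

end Tor

theorem finite_torsion (N : ℕ) [NeZero N] (m : ℕ) (hm : 0 < m) :
    Finite {x : Pic0 Kc (C24.FN N) // m • x = 0} := by
  haveI := finite_chr N m hm
  choose D f χ hx hf hD hχ hχm using fun x : {x : Pic0 Kc (C24.FN N) // m • x = 0} =>
    Tor.exists_data N m hm x.1 x.2
  apply Finite.of_injective (fun x => (⟨χ x, hχm x⟩ : {χ : Chr N // χ ^ m = 1}))
  intro x x' hxx
  have hχeq : χ x = χ x' := congrArg Subtype.val hxx
  have h1 : C24.Ch.HasChar N m (f x * (f x')⁻¹) 1 := by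
    have := (hχ x).mul ((hχ x').inv hm)
    have h0 : χ x * (χ x')⁻¹ = 1 := by
      rw [hχeq]; ext γ; simp
    rwa [h0] at this
  obtain ⟨w, hw⟩ := exists_pow_of_hasChar_one_C hm h1
  have hw0 : w ≠ 0 := by
    rintro rfl
    rw [zero_pow hm.ne'] at hw
    exact mul_ne_zero (hf x) (inv_ne_zero (hf x')) hw
  apply Subtype.ext
  rw [hx x, hx x']
  apply (QuotientAddGroup.eq_iff_sub_mem).2
  rw [AddSubgroup.mem_addSubgroupOf]
  refine ⟨w, hw0, fun v => ?_⟩
  have hm' : (m : ℤ) ≠ 0 := by exact_mod_cast hm.ne'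
  apply mul_left_cancel₀ hm'
  have e1 := congrArg v.ord hw
  rw [v.ord_mul (hf x) (inv_ne_zero (hf x')), Place.ord_inv, S24.ord_pow, ← hD x v, ← hD x' v] at e1
  rw [← e1]
  simp only [AddSubgroup.coe_sub, Finsupp.coe_sub, Pi.sub_apply]
  ring

end Fermat.Agent.DIV
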