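import Fermat.Agent.DIV.Geo.Setup
import Fermat.Agent.DIV.Model.Inst
import Fermat.Agent.DIV.Torsion
import Fermat.Agent.DIV.RichC

set_option autoImplicit false

/-!
# DIV: `J₀(N)(ℚ̄)` is divisible
-/

namespace Fermat.Agent.DIV

open AlgebraicCurve Fermat.Agent.NV Fermat.Agent.RL
open Fermat.Agent.S24 (Kb)
open Fermat.Agent.C24 (Kc)

variable (N : ℕ) [NeZero N]

/-- push forward of divisors. -/
noncomputable def bcD : Divisor Kb (S24.FN N) →+ Divisor Kc (C24.FN N) :=
  Finsupp.mapDomain.addMonoidHom (bc N)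

theorem bcD_single (v : Place Kb (S24.FN N)) (n : ℤ) :
    bcD N (Finsupp.single v n) = Finsupp.single (bc N v) n :=
  Finsupp.mapDomain_single

theorem bcD_apply (D : Divisor Kb (S24.FN N)) (v : Place Kb (S24.FN N)) :
    bcD N D (bc N v) = D v :=
  Finsupp.mapDomain_apply (bc_injective N) D v

theorem bcD_apply_of_not_mem (D : Divisor Kb (S24.FN N)) {w : Place Kc (C24.FN N)}
    (hw : w ∉ Set.range (bc N)) : bcD N D w = 0 :=
  Finsupp.mapDomain_of_notMem_range D w hw

theorem degree_bcD (D : Divisor Kb (S24.FN N)) :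
    Divisor.degree (bcD N D) = Divisor.degree D := by
  have : (Divisor.degree (K := Kc) (F := C24.FN N)).comp (bcD N) = Divisor.degree := by
    apply Finsupp.addHom_ext
    intro v n
    rw [AddMonoidHom.comp_apply, bcD_single, Divisor.degree_single, Divisor.degree_single,
      S24.deg_eq_one (C24.isFF1_FN N), S24.deg_eq_one (S24.isFF1_FN N)]
  exact DFunLike.congr_fun this D

theorem exists_bcD_eq {D : Divisor Kc (C24.FN N)} (hD : ∀ P ∈ D.support, P ∈ Set.range (bc N)) :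
    ∃ Db, bcD N Db = D :=
  ⟨D.comapDomain (bc N) (bc_injective N).injOn,
    Finsupp.mapDomain_comapDomain (bc N) (bc_injective N) D fun P hP => hD P hP⟩

theorem smul_bcD (σ : Kc ≃ₐ[ℚ] Kc) (hσ : ∀ a, σ (iotaKC a) = iotaKC a)
    (D : Divisor Kb (S24.FN N)) :
    ModularCurve.arithmeticGalois (ModularCurve.modularFunctionFieldFull N) σ • bcD N D
      = bcD N D := by
  induction D using Finsupp.induction_linear with
  | zero => rw [map_zero, smul_zero]
  | add D E hD hE => rw [map_add, smul_add, hD, hE]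
  | single v n => rw [bcD_single, SemilinearAut.smul_single, smul_bc N σ hσ]

/-- a divisor over `ℚ̄` which becomes principal over `ℂ` is principal. -/
theorem principal_of_bcD {D : Divisor Kb (S24.FN N)}
    (hD : bcD N D ∈ Divisor.principal (K := Kc) (F := C24.FN N)) :
    D ∈ Divisor.principal (K := Kb) (F := S24.FN N) := by
  obtain ⟨f, hf, hfv⟩ := hD
  obtain ⟨c, f₀, hc, hf₀, e⟩ := exists_descent_of_supp N f hf fun w hw => by
    rw [← hfv w, bcD_apply_of_not_mem N D hw]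
  refine ⟨f₀, hf₀, fun v => ?_⟩
  rw [← bcD_apply N D v, hfv, e, Algebra.smul_def,
    Place.ord_mul _ ((map_ne_zero _).2 hc) ((map_ne_zero _).2 hf₀), S24.ord_algebraMap, zero_add,
    ord_bc]

/-- the places whose `j`-value is `∞` or algebraic come from `ℚ̄`. -/
theorem mem_range_bc_of_valOpt {P : Place Kc (C24.FN N)}
    (hP : ∀ s, valOpt (C24.isFF1_FN N) P (C24.jF N) = some s → s ∈ cl (∅ : Set Kc)) :
    P ∈ Set.range (bc N) := by
  rw [mem_range_bc_iff]
  rcases hv : valOpt (C24.isFF1_FN N) P (C24.jF N) with _ | s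
  · left
    exact (valOpt_eq_none_iff _ _).1 hv
  · right
    obtain ⟨c, rfl⟩ := (mem_cl_empty_iff s).1 (hP s hv)
    obtain ⟨h1, h2⟩ := (valOpt_eq_some_iff _ _).1 hv
    refine ⟨c, (valAt_eq_iff _ _ h1 ?_).1 h2⟩
    intro h0
    exact C24.transcendental_jF N (h0 ▸ isAlgebraic_algebraMap _)

/-- **`J₀(N)(ℚ̄)` is divisible.** -/
theorem divisible (m : ℕ) (hm : 0 < m) (a : ModularCurve.JZero N) : ∃ b, m • b = a := by
  obtain ⟨𝔤, hact, hx⟩ := exists_geo N
  have h := C24.isFF1_FN N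
  have hΩ : Rich Kc := rich_of_uncountable
  have hfin : {c : Pic0 Kc (C24.FN N) | m • c = 0}.Finite := by
    exact Set.finite_coe_iff.1 (finite_torsion N m hm)
  obtain ⟨A, rfl⟩ := Pic0.mk_surjective a
  have hAc : bcD N (A : Divisor Kb (S24.FN N)) ∈ Divisor.degZero (K := Kc) (F := C24.FN N) := by
    rw [Divisor.mem_degZero, degree_bcD]
    exact Divisor.mem_degZero.1 A.2
  have ha : ∀ σ ∈ fixer (∅ : Set Kc), 𝔤.act σ • Pic0.mk ⟨_, hAc⟩ = Pic0.mk ⟨_, hAc⟩ := by
    intro σ hσ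
    rw [SemilinearAut.pic0_smul_mk]
    congr 1
    apply Subtype.ext
    rw [SemilinearAut.coe_degZeroSMulHom, hact]
    exact smul_bcD N σ (fun a => fix_iotaKC hσ a) _
  obtain ⟨D, hD, hsupp⟩ := 𝔤.divisible h hΩ hfin (Pic0.mk ⟨_, hAc⟩) ha
  rw [hx] at hsupp
  obtain ⟨Db, hDb⟩ := exists_bcD_eq N fun P hP => mem_range_bc_of_valOpt N (hsupp P hP)
  obtain ⟨ob, hob⟩ : 𝔤.o ∈ Set.range (bc N) := by
    rw [mem_range_bc_iff]
    left
    rw [← hx]
    exact 𝔤.ord_o
  have hB := sub_degree_smul_mem_degZero (S24.isFF1_FN N) ob Db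
  have hBc : bcD N (Db - Divisor.degree Db • pt ob) = D - Divisor.degree D • pt 𝔤.o := by
    rw [map_sub, map_zsmul, bcD_single, hDb, hob, ← hDb, degree_bcD]
  refine ⟨Pic0.mk ⟨_, hB⟩, ?_⟩
  -- the difference is principal over `ℂ`
  have h1 : m • (D - Divisor.degree D • pt 𝔤.o) - bcD N (A : Divisor Kb (S24.FN N)) ∈
      Divisor.principal (K := Kc) (F := C24.FN N) := by
    have h2 : m • Pic0.mk ⟨_, sub_degree_smul_mem_degZero h 𝔤.o D⟩ - Pic0.mk ⟨_, hAc⟩ = 0 :=
      sub_eq_zero.2 hD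
    have h3 := (QuotientAddGroup.eq_zero_iff (N := (Divisor.principal (K := Kc)
      (F := C24.FN N)).addSubgroupOf (Divisor.degZero (K := Kc) (F := C24.FN N)))
      (m • (⟨_, sub_degree_smul_mem_degZero h 𝔤.o D⟩ : Divisor.degZero (K := Kc)
        (F := C24.FN N)) - (⟨_, hAc⟩ : Divisor.degZero (K := Kc) (F := C24.FN N)))).1 h2
    exact AddSubgroup.mem_addSubgroupOf.1 h3
  rw [← hBc, ← map_nsmul, ← map_sub] at h1
  have h4 := principal_of_bcD N h1
  apply sub_eq_zero.1
  exact (QuotientAddGroup.eq_zero_iff (N := (Divisor.principal (K := Kb)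
      (F := S24.FN N)).addSubgroupOf (Divisor.degZero (K := Kb) (F := S24.FN N)))
      (m • (⟨_, hB⟩ : Divisor.degZero (K := Kb) (F := S24.FN N)) - A)).2
      (AddSubgroup.mem_addSubgroupOf.2 h4)

end Fermat.Agent.DIV
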