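import Fermat.Agent.DIV.Exchange

set_option autoImplicit false

/-!
# DIV task DV2-Orbits : classes with finite orbit under `fixer T`

All statements are elementary facts on group actions.
* `finite_orbit_place`: the orbit is contained in the fibre of `val` (`S.val_smul`, `S.finite_fibre`; `σ s = s` for `σ ∈ fixer T`, `s ∈ cl T`).
* `FinOrb`: the orbit of `a + b` is contained in `orbit a + orbit b` (`Set.Finite.image2`), the orbit of `-a` is `- orbit a`.
* `saturated`: `x ↦ m • x` maps `orbit b` to `orbit (m • b)`, with fibres contained in translates of the finite set `{c | m • c = 0}` (`Set.Finite.of_finite_fibers`/`Set.Finite.biUnion`).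
* `val_mem_cl`: the set `⋃_{c' ∈ orbit c} (S.red c').support` is finite and stable under `fixer T` (`S.red_smul`, `Finsupp.mapDomain_support_of_injective`), it contains `P`, hence it contains `orbit P`; so
  the orbit of `s` (the image of `orbit P` under `val`) is finite, and `hΩ.orbit` gives `s ∈ cl T`.
* `mem_FinOrb_of_red`: `S.sum_red`, `AddSubgroup.sum_mem`, `zsmul_mem`.
-/

namespace Fermat.Agent.DIV

open IntermediateField

variable {Ω : Type*} [Field Ω] [Algebra ℚ Ω] {Pl JJ : Type*} [AddCommGroup JJ]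
  [MulAction (Ω ≃ₐ[ℚ] Ω) Pl] [DistribMulAction (Ω ≃ₐ[ℚ] Ω) JJ] (S : Setup Ω Pl JJ)

/-- the value of `P` is `∞` or lies in `cl T`. -/
def Setup.Over (T : Set Ω) (P : Pl) : Prop := ∀ s, S.val P = some s → s ∈ cl T

theorem orbits_val_smul {T : Set Ω} {P : Pl} (hP : S.Over T P) (σ : fixer T) :
    S.val (σ • P) = S.val P := by
  rw [Subgroup.smul_def, S.val_smul]
  rcases h : S.val P with _ | s
  · rfl
  · have := mem_fixer.1 σ.2 s (hP s h)
    simp [this]

theorem finite_orbit_place {T : Set Ω} {P : Pl} (hP : S.Over T P) :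
    (MulAction.orbit (fixer T) P).Finite := by
  refine (S.finite_fibre (S.val P)).subset ?_
  rintro _ ⟨σ, rfl⟩
  exact orbits_val_smul S hP σ

/-- the classes with finite orbit under `fixer T`. -/
def FinOrb (JJ : Type*) [AddCommGroup JJ] [DistribMulAction (Ω ≃ₐ[ℚ] Ω) JJ] (T : Set Ω) :
    AddSubgroup JJ where
  carrier := {c | (MulAction.orbit (fixer T) c).Finite}
  zero_mem' := by
    refine (Set.finite_singleton (0 : JJ)).subset ?_
    rintro _ ⟨σ, rfl⟩
    show σ • (0 : JJ) = 0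
    rw [Subgroup.smul_def, smul_zero]
  add_mem' := by
    intro a b ha hb
    refine (Set.Finite.image2 (· + ·) ha hb).subset ?_
    rintro _ ⟨σ, rfl⟩
    refine ⟨σ • a, ⟨σ, rfl⟩, σ • b, ⟨σ, rfl⟩, ?_⟩
    show σ • a + σ • b = σ • (a + b)
    rw [Subgroup.smul_def, Subgroup.smul_def, Subgroup.smul_def, smul_add]
  neg_mem' := by
    intro a ha
    refine (Set.Finite.image (fun x => -x) ha).subset ?_
    rintro _ ⟨σ, rfl⟩
    refine ⟨σ • a, ⟨σ, rfl⟩, ?_⟩
    show -(σ • a) = σ • (-a)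
    rw [Subgroup.smul_def, Subgroup.smul_def, smul_neg]

theorem mem_FinOrb {T : Set Ω} {c : JJ} :
    c ∈ FinOrb JJ T ↔ (MulAction.orbit (fixer T) c).Finite := Iff.rfl

theorem FinOrb_mono {T T' : Set Ω} (h : T ⊆ T') : FinOrb JJ T ≤ FinOrb JJ T' := by
  intro c hc
  rw [mem_FinOrb] at hc ⊢
  refine hc.subset ?_
  rintro _ ⟨σ, rfl⟩
  exact ⟨⟨σ.1, fixer_mono h σ.2⟩, rfl⟩

theorem cls_mem_FinOrb {T : Set Ω} {P : Pl} (hP : S.Over T P) : S.cls P ∈ FinOrb JJ T := by
  rw [mem_FinOrb]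
  refine ((finite_orbit_place S hP).image S.cls).subset ?_
  rintro _ ⟨σ, rfl⟩
  refine ⟨σ • P, ⟨σ, rfl⟩, ?_⟩
  show S.cls (σ • P) = σ • S.cls P
  rw [Subgroup.smul_def, Subgroup.smul_def, S.cls_smul]

theorem saturated {T : Set Ω} {m : ℕ} (hfin : {c : JJ | m • c = 0}.Finite) {b : JJ}
    (hb : m • b ∈ FinOrb JJ T) : b ∈ FinOrb JJ T := by
  rw [mem_FinOrb] at hb ⊢
  apply Set.Finite.of_finite_fibers (fun x : JJ => m • x)
  · refine hb.subset ?_
    rintro _ ⟨_, ⟨σ, rfl⟩, rfl⟩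
    refine ⟨σ, ?_⟩
    show σ • (m • b) = m • (σ • b)
    rw [Subgroup.smul_def, Subgroup.smul_def]
    exact map_nsmul (DistribSMul.toAddMonoidHom JJ (σ : Ω ≃ₐ[ℚ] Ω)) m b
  · rintro _ ⟨x₀, -, rfl⟩
    refine (hfin.image (fun c => x₀ + c)).subset ?_
    rintro x ⟨-, hx⟩
    refine ⟨x - x₀, ?_, by simp⟩
    have hx' : m • x = m • x₀ := hx
    show m • (x - x₀) = 0
    rw [smul_sub, hx', sub_self]

theorem over_of_mem_FinOrb (hΩ : Rich Ω) {T : Set Ω} {c : JJ} (hc : c ∈ FinOrb JJ T) {P : Pl}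
    (hP : P ∈ (S.red c).support) : S.Over T P := by
  classical
  intro s hs
  by_contra hns
  apply hΩ.orbit T s hns
  rw [mem_FinOrb] at hc
  have hW : (⋃ c' ∈ MulAction.orbit (fixer T) c, ((S.red c').support : Set Pl)).Finite :=
    hc.biUnion fun c' _ => Finset.finite_toSet _
  refine (hW.image fun Q => (S.val Q).getD 0).subset ?_
  rintro _ ⟨σ, rfl⟩
  refine ⟨(σ : Ω ≃ₐ[ℚ] Ω) • P, ?_, ?_⟩
  · rw [Set.mem_iUnion₂]
    refine ⟨σ • c, ⟨σ, rfl⟩, ?_⟩
    rw [Finset.mem_coe, Finsupp.mem_support_iff, Subgroup.smul_def, S.red_smul,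
      Finsupp.mapDomain_apply (MulAction.injective (σ : Ω ≃ₐ[ℚ] Ω))]
    exact Finsupp.mem_support_iff.1 hP
  · show (S.val ((σ : Ω ≃ₐ[ℚ] Ω) • P)).getD 0 = σ • s
    rw [S.val_smul, hs]
    rfl

theorem mem_FinOrb_of_red {T : Set Ω} {c : JJ} (h : ∀ P ∈ (S.red c).support, S.Over T P) :
    c ∈ FinOrb JJ T := by
  rw [← S.sum_red c]
  exact AddSubgroup.sum_mem _ fun P hP => AddSubgroup.zsmul_mem _ (cls_mem_FinOrb S (h P hP)) _

end Fermat.Agent.DIV
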