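import Fermat.Agent.S24.Principal
import Fermat.Agent.S24.Avoid
import Fermat.Prelude.Def_AlgebraicCurve_BaseChangeGalois

set_option autoImplicit false

/-!
# DIV task DV7-Val : the value of a function at a place

`K` algebraically closed, `F / K` a function field (`S24.IsFF1`).  The residue field of a place is `K` (`S24.residue_bijective`), so there is an evaluation
`evp h v : O_v →+* K`.  `valAt h v f` is the total version (junk value `0` if `f` has a pole).

All the statements follow from the definition, from `IsLocalRing.residue_eq_zero_iff`, `S24.Residue.ord_pos_of_mem_maximalIdeal`, `S24.mem_iff_ord_nonneg`, `Place.ord_coe_unit`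
(an element of `O_v` not in the maximal ideal is a unit, hence of order `0`) and, for the equivariance, from the uniqueness `valAt_eq_of_ord_pos`, `SemilinearAut.ord_smul`, `SemilinearAut.smul_algebraMap`.
`valAt_aeval`, `valAt_aevalAeval`: write `x = ↑x'`, `y = ↑y'` with `x' y' : O_v`; `aeval x p = ↑(aeval x' p)` (`O_v` is a `K`-algebra, the inclusion is the algebra hom `IsScalarTower.toAlgHom K O_v F`; `Polynomial.aeval_algHom_apply`/`Polynomial.hom_eval₂`),
and `evp` is a `K`-algebra hom; or prove them by `Polynomial.induction_on`.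
-/

namespace Fermat.Agent.DIV

open AlgebraicCurve Fermat.Agent.S24 Polynomial
open scoped Polynomial.Bivariate

variable {K F : Type*} [Field K] [Field F] [Algebra K F] [IsAlgClosed K] (h : IsFF1 K F)
  (v : Place K F)

/-- evaluation at a place. -/
noncomputable def evp : v.toValuationSubring →+* K :=
  ((RingEquiv.ofBijective (algebraMap K v.ResidueField) (residue_bijective h v)).symm :
    v.ResidueField →+* K).comp (IsLocalRing.residue v.toValuationSubring)

open Classical in
/-- the value of `f` at `v` (`0` if `f` has a pole). -/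
noncomputable def valAt (f : F) : K :=
  if hf : f ∈ v.toValuationSubring then evp h v ⟨f, hf⟩ else 0

theorem valAt_of_mem {f : F} (hf : f ∈ v.toValuationSubring) : valAt h v f = evp h v ⟨f, hf⟩ :=
  dif_pos hf

theorem evp_algebraMap (a : K) : evp h v (algebraMap K v.toValuationSubring a) = a := by
  unfold evp
  rw [RingHom.comp_apply]
  have h1 : IsLocalRing.residue v.toValuationSubring (algebraMap K v.toValuationSubring a) =
      RingEquiv.ofBijective (algebraMap K v.ResidueField) (residue_bijective h v) a :=
    (IsScalarTower.algebraMap_apply K v.toValuationSubring v.ResidueField a).symm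
  rw [h1]
  exact RingEquiv.symm_apply_apply _ a

theorem evp_eq_zero_iff (f : v.toValuationSubring) :
    evp h v f = 0 ↔ f ∈ IsLocalRing.maximalIdeal v.toValuationSubring := by
  unfold evp
  rw [RingHom.comp_apply, ← IsLocalRing.residue_eq_zero_iff]
  exact map_eq_zero_iff _ (RingEquiv.injective _)

theorem valAt_algebraMap (a : K) : valAt h v (algebraMap K F a) = a := by
  rw [valAt_of_mem h v (v.algebraMap_mem' a)]
  exact evp_algebraMap h v a

theorem valAt_zero : valAt h v 0 = 0 := by
  rw [valAt_of_mem h v (zero_mem _)]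
  exact map_zero (evp h v)

theorem valAt_one : valAt h v 1 = 1 := by
  rw [valAt_of_mem h v (one_mem _)]
  exact map_one (evp h v)

theorem valAt_add {f g : F} (hf : f ∈ v.toValuationSubring) (hg : g ∈ v.toValuationSubring) :
    valAt h v (f + g) = valAt h v f + valAt h v g := by
  rw [valAt_of_mem h v hf, valAt_of_mem h v hg, valAt_of_mem h v (add_mem hf hg)]
  exact map_add (evp h v) ⟨f, hf⟩ ⟨g, hg⟩

theorem valAt_sub {f g : F} (hf : f ∈ v.toValuationSubring) (hg : g ∈ v.toValuationSubring) :
    valAt h v (f - g) = valAt h v f - valAt h v g := by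
  rw [valAt_of_mem h v hf, valAt_of_mem h v hg, valAt_of_mem h v (sub_mem hf hg)]
  exact map_sub (evp h v) ⟨f, hf⟩ ⟨g, hg⟩

theorem valAt_mul {f g : F} (hf : f ∈ v.toValuationSubring) (hg : g ∈ v.toValuationSubring) :
    valAt h v (f * g) = valAt h v f * valAt h v g := by
  rw [valAt_of_mem h v hf, valAt_of_mem h v hg, valAt_of_mem h v (mul_mem hf hg)]
  exact map_mul (evp h v) ⟨f, hf⟩ ⟨g, hg⟩

theorem valAt_eq_zero_iff {f : F} (hf : f ∈ v.toValuationSubring) (hf0 : f ≠ 0) :
    valAt h v f = 0 ↔ 0 < v.ord f := by
  rw [valAt_of_mem h v hf, evp_eq_zero_iff]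
  constructor
  · intro h1
    exact Residue.ord_pos_of_mem_maximalIdeal v (a := ⟨f, hf⟩) h1 hf0
  · intro h1
    rw [IsLocalRing.mem_maximalIdeal, mem_nonunits_iff]
    intro hu
    obtain ⟨u, hu⟩ := hu
    have h2 := v.ord_coe_unit u
    rw [hu] at h2
    have h3 : v.ord f = 0 := h2
    omega

/-- a function with non zero value is a unit. -/
theorem ord_eq_zero_of_valAt_ne_zero {f : F} (hf : valAt h v f ≠ 0) : v.ord f = 0 := by
  have hmem : f ∈ v.toValuationSubring := by
    by_contra hn
    exact hf (dif_neg hn)
  have hf0 : f ≠ 0 := by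
    rintro rfl
    exact hf (valAt_zero h v)
  have h1 := ord_nonneg_of_mem v hmem
  have h2 := (valAt_eq_zero_iff h v hmem hf0).not.1 hf
  omega

theorem inv_mem_of_valAt_ne_zero {f : F} (hf : valAt h v f ≠ 0) :
    f⁻¹ ∈ v.toValuationSubring := by
  apply mem_of_ord_nonneg
  rw [v.ord_inv, ord_eq_zero_of_valAt_ne_zero h v hf, neg_zero]

theorem ord_sub_valAt_pos {f : F} (hf : f ∈ v.toValuationSubring)
    (hne : f ≠ algebraMap K F (valAt h v f)) : 0 < v.ord (f - algebraMap K F (valAt h v f)) := by
  rw [← valAt_eq_zero_iff h v (sub_mem hf (v.algebraMap_mem' _)) (sub_ne_zero.2 hne),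
    valAt_sub h v hf (v.algebraMap_mem' _), valAt_algebraMap, sub_self]

theorem valAt_eq_of_ord_pos {f : F} {c : K} (hc : 0 < v.ord (f - algebraMap K F c)) :
    f ∈ v.toValuationSubring ∧ valAt h v f = c := by
  have h1 : f - algebraMap K F c ∈ v.toValuationSubring := mem_of_ord_nonneg v hc.le
  have hf : f ∈ v.toValuationSubring := by
    have := add_mem h1 (v.algebraMap_mem' c)
    rwa [sub_add_cancel] at this
  refine ⟨hf, ?_⟩
  have h0 : f - algebraMap K F c ≠ 0 := by
    intro h0
    rw [h0, Place.ord_zero] at hc
    exact lt_irrefl _ hc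
  have h2 := (valAt_eq_zero_iff h v h1 h0).2 hc
  rw [valAt_sub h v hf (v.algebraMap_mem' _), valAt_algebraMap] at h2
  exact sub_eq_zero.1 h2

theorem valAt_eq_iff {f : F} (hf : f ∈ v.toValuationSubring) {c : K}
    (hne : f ≠ algebraMap K F c) : valAt h v f = c ↔ 0 < v.ord (f - algebraMap K F c) := by
  constructor
  · rintro rfl
    exact ord_sub_valAt_pos h v hf hne
  · intro hc
    exact (valAt_eq_of_ord_pos h v hc).2

theorem aeval_mem {x : F} (hx : x ∈ v.toValuationSubring) (p : K[X]) :
    aeval x p ∈ v.toValuationSubring := by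
  induction p using Polynomial.induction_on with
  | C a => rw [aeval_C]; exact v.algebraMap_mem' a
  | add p q hp hq => rw [map_add]; exact add_mem hp hq
  | monomial n a _ =>
    rw [map_mul, aeval_C, map_pow, aeval_X]
    exact mul_mem (v.algebraMap_mem' a) (pow_mem hx _)

theorem valAt_pow {f : F} (hf : f ∈ v.toValuationSubring) (n : ℕ) :
    valAt h v (f ^ n) = valAt h v f ^ n := by
  induction n with
  | zero => rw [pow_zero, pow_zero, valAt_one]
  | succ n ih => rw [pow_succ, pow_succ, valAt_mul h v (pow_mem hf n) hf, ih]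

theorem valAt_aeval {x : F} (hx : x ∈ v.toValuationSubring) (p : K[X]) :
    valAt h v (aeval x p) = p.eval (valAt h v x) := by
  induction p using Polynomial.induction_on with
  | C a => rw [aeval_C, valAt_algebraMap, eval_C]
  | add p q hp hq =>
    rw [map_add, valAt_add h v (aeval_mem v hx p) (aeval_mem v hx q), hp, hq, eval_add]
  | monomial n a _ =>
    rw [map_mul, aeval_C, map_pow, aeval_X, valAt_mul h v (v.algebraMap_mem' a) (pow_mem hx _),
      valAt_algebraMap, valAt_pow h v hx, eval_mul, eval_C, eval_pow, eval_X]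

theorem aevalAeval_mem {x y : F} (hx : x ∈ v.toValuationSubring) (hy : y ∈ v.toValuationSubring)
    (Ψ : K[X][Y]) : aevalAeval x y Ψ ∈ v.toValuationSubring := by
  induction Ψ using Polynomial.induction_on with
  | C a => rw [aevalAeval_C]; exact aeval_mem v hx a
  | add p q hp hq => rw [map_add]; exact add_mem hp hq
  | monomial n a _ =>
    rw [map_mul, aevalAeval_C, map_pow, aevalAeval_Y]
    exact mul_mem (aeval_mem v hx a) (pow_mem hy _)

theorem valAt_aevalAeval {x y : F} (hx : x ∈ v.toValuationSubring)
    (hy : y ∈ v.toValuationSubring) (Ψ : K[X][Y]) :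
    valAt h v (aevalAeval x y Ψ) = Ψ.evalEval (valAt h v x) (valAt h v y) := by
  induction Ψ using Polynomial.induction_on with
  | C a => rw [aevalAeval_C, valAt_aeval h v hx, evalEval_C]
  | add p q hp hq =>
    rw [map_add, valAt_add h v (aevalAeval_mem v hx hy p) (aevalAeval_mem v hx hy q), hp, hq,
      evalEval_add]
  | monomial n a _ =>
    rw [map_mul, aevalAeval_C, map_pow, aevalAeval_Y,
      valAt_mul h v (aeval_mem v hx a) (pow_mem hy _), valAt_aeval h v hx, valAt_pow h v hy,
      evalEval_mul, evalEval_C, evalEval_pow, evalEval_X]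

theorem smul_mem_smul_iff (g : SemilinearAut K F) {f : F} :
    g • f ∈ (g • v).toValuationSubring ↔ f ∈ v.toValuationSubring := by
  rw [mem_iff_ord_nonneg, mem_iff_ord_nonneg, SemilinearAut.ord_smul]

theorem valAt_smul (g : SemilinearAut K F) (f : F) :
    valAt h (g • v) (g • f) = SemilinearAut.baseAut g (valAt h v f) := by
  by_cases hf : f ∈ v.toValuationSubring
  · by_cases hne : f = algebraMap K F (valAt h v f)
    · conv_lhs => rw [hne]
      rw [SemilinearAut.smul_algebraMap, valAt_algebraMap]
    · have h1 := ord_sub_valAt_pos h v hf hne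
      rw [← SemilinearAut.ord_smul g, smul_sub, SemilinearAut.smul_algebraMap] at h1
      exact (valAt_eq_of_ord_pos h (g • v) h1).2
  · have hf' : g • f ∉ (g • v).toValuationSubring := fun h1 => hf ((smul_mem_smul_iff v g).1 h1)
    rw [valAt, dif_neg hf', valAt, dif_neg hf, map_zero]

open Classical in
/-- the value as an element of `K ∪ {∞}`. -/
noncomputable def valOpt (f : F) : Option K :=
  if f ∈ v.toValuationSubring then some (valAt h v f) else none

theorem valOpt_eq_some_iff {f : F} {c : K} :
    valOpt h v f = some c ↔ f ∈ v.toValuationSubring ∧ valAt h v f = c := by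
  unfold valOpt
  split_ifs with hf
  · simp [hf]
  · simp [hf]

theorem valOpt_eq_none_iff {f : F} : valOpt h v f = none ↔ v.ord f < 0 := by
  unfold valOpt
  rw [mem_iff_ord_nonneg]
  split_ifs with hf
  · simp only [false_iff, not_lt]; exact hf
  · simp only [true_iff]; omega

theorem valOpt_smul (g : SemilinearAut K F) (f : F) :
    valOpt h (g • v) (g • f) = (valOpt h v f).map (SemilinearAut.baseAut g) := by
  unfold valOpt
  by_cases hf : f ∈ v.toValuationSubring
  · rw [if_pos hf, if_pos ((smul_mem_smul_iff v g).2 hf), valAt_smul, Option.map_some]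
  · rw [if_neg hf, if_neg fun h1 => hf ((smul_mem_smul_iff v g).1 h1), Option.map_none]

theorem val_transcendental_sub {f : F} (hf : Transcendental K f) (a : K) :
    Transcendental K (f - algebraMap K F a) := by
  intro halg
  apply hf
  have := halg.add (isAlgebraic_algebraMap a)
  rwa [sub_add_cancel] at this

/-- the fibres of a non constant function are finite ... -/
theorem finite_valOpt_eq [CharZero K] {f : F} (hf : Transcendental K f) (c : Option K) :
    {v : Place K F | valOpt h v f = c}.Finite := by
  rcases c with _ | a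
  · have hinv : Transcendental K f⁻¹ := by
      intro halg
      apply hf
      have := halg.inv
      rwa [inv_inv] at this
    refine (finite_ord_pos h hinv).subset fun v hv => ?_
    have h1 := (valOpt_eq_none_iff h v).1 hv
    show 0 < v.ord f⁻¹
    rw [v.ord_inv]
    omega
  · refine (finite_ord_pos h (val_transcendental_sub hf a)).subset fun v hv => ?_
    obtain ⟨h1, h2⟩ := (valOpt_eq_some_iff h v).1 hv
    refine (valAt_eq_iff h v h1 ?_).1 h2
    intro h0
    exact hf (h0 ▸ isAlgebraic_algebraMap a)

/-- ... and non empty. -/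
theorem exists_valOpt_eq [CharZero K] {f : F} (hf : Transcendental K f) (a : K) :
    ∃ v : Place K F, valOpt h v f = some a := by
  have htr := val_transcendental_sub hf a
  have h1 := sum_ord_pos h htr
  have := h.finiteDimensional htr
  have h2 : 0 < Module.finrank (IntermediateField.adjoin K {f - algebraMap K F a}) F :=
    Module.finrank_pos
  have h3 : (finite_ord_pos h htr).toFinset.Nonempty := by
    by_contra hne
    rw [Finset.not_nonempty_iff_eq_empty] at hne
    rw [hne, Finset.sum_empty] at h1
    omega
  obtain ⟨v, hv⟩ := h3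
  rw [Set.Finite.mem_toFinset] at hv
  exact ⟨v, (valOpt_eq_some_iff h v).2 (valAt_eq_of_ord_pos h v hv)⟩

end Fermat.Agent.DIV
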